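import Mathlib
import Fermat.Agent.MUL.F3.I2.Descent.Main
import Fermat.Agent.MUL.Lib.ConstExt.DescInst
import Fermat.Agent.MUL.S17.Pts.Galois
import Fermat.Agent.MUL.Lib.RR.Weil
import Fermat.Agent.MUL.Lib.RR.NonSpecial
import Fermat.Agent.MUL.Orig.Lib.ConstExt.Basic
import Fermat.Agent.MUL.Orig.Lib.RR.Basic
import Fermat.Agent.MUL.Orig.S17.Pts.Eval
import Fermat.Agent.MUL.F3.I2.Descent.Uncond
import Fermat.Agent.MUL.Lib.RR.OfModularCFinal
import Fermat.Agent.MUL.S17.H.Setup.Cusp
import Fermat.Agent.MUL.F3.TorsFin.CharFinite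
import Fermat.Agent.MUL.F3.I2.Descent.Final
import Fermat.Agent.MUL.Orig.S17.Interfaces

section MergeWrap_Lib_Div_Defs -- from Lib/Div/Defs.lean

set_option autoImplicit false

/-!
# Package DIV (divisibility of `J₀(N)(ℚ̄)`), architect helper38: DEFINITIONS

Algebraic route (NOTES/blueprint-DIV.md): `Ω` an uncountable algebraically closed field of
characteristic `0` (in the end `ℂ`), `F_Ω = laurentBaseChange Ω F₀`, `x₀ ∈ F₀` a coordinate function.

* `closField S`     : the algebraic closure in `Ω` of `ℚ(S)`, as a `Subfield Ω`;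
* `galOver S`       : `Aut(Ω / closField S)` as a subgroup of `Ω ≃ₐ[ℚ] Ω`;
* `xOf`             : the coordinate function in `F_L`;
* `Over x₀ P c`     : the place `P` of `F_Ω` is a zero of `x - c`;
* `sumPl P`         : the effective divisor `P_0 + ... + P_{n-1}`;
* `IsGenTuple x₀ P` : the places `P i` lie over algebraically independent values;
* `cls hΩ P₀ D`     : the class of `D - deg(D) P₀` in `Pic0`;
* `orbitOf H x`     : the orbit of `x` under a subgroup `H` of `Ω ≃ₐ[ℚ] Ω`;
* `IsGen K K' F₀ w` : the place `w` of `F_K'` is trivial on `θ (F_K)`.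

This file contains definitions and trivial lemmas only.  DO NOT EDIT (ask helper38).
-/

noncomputable section

namespace Fermat.Agent.Div

open ModularCurve HahnSeries AlgebraicCurve Fermat.Agent.RR Fermat.Agent.F3I2

section Field

variable {Ω : Type*} [Field Ω]

/-- the algebraic closure in `Ω` of the field generated by `S`. -/
def closField (S : Set Ω) : Subfield Ω :=
  (algebraicClosure ↥(Subfield.closure S) Ω).toSubfield

theorem mem_closField {S : Set Ω} {a : Ω} :
    a ∈ closField S ↔ IsAlgebraic ↥(Subfield.closure S) a := by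
  unfold closField
  rw [IntermediateField.mem_toSubfield, mem_algebraicClosure_iff]

end Field

variable {Ω : Type*} [Field Ω] [Algebra ℚ Ω]
variable (F₀ : IntermediateField ℚ (LaurentSeries ℚ))

/-- `Aut(Ω / closField S)` inside `Aut(Ω/ℚ)`. -/
def galOver (S : Set Ω) : Subgroup (Ω ≃ₐ[ℚ] Ω) :=
  descGal ↥(closField S) Ω

theorem mem_galOver {S : Set Ω} {σ : Ω ≃ₐ[ℚ] Ω} :
    σ ∈ galOver S ↔ ∀ a ∈ closField S, σ a = a := by
  constructor
  · intro h a ha
    exact h ⟨a, ha⟩
  · intro h a
    exact h a a.2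

/-- the orbit of `x` under a subgroup of `Aut(Ω/ℚ)` acting through `arithmeticGalois`. -/
def orbitOf {X : Type*} [SMul (SemilinearAut Ω (laurentBaseChange Ω F₀)) X]
    (H : Subgroup (Ω ≃ₐ[ℚ] Ω)) (x : X) : Set X :=
  {y | ∃ σ ∈ H, arithmeticGalois F₀ σ • x = y}

/-- the place `w` of `F_K'` is GENERIC over `K`: it is trivial on `θ (F_K)`. -/
def IsGen (K K' : Type*) [Field K] [Field K'] [Algebra ℚ K] [Algebra ℚ K'] [Algebra K K']
    (w : Place K' (laurentBaseChange K' F₀)) : Prop :=
  ∀ f : laurentBaseChange K F₀, w.ord (descTheta K K' F₀ f) = 0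

variable {F₀}

/-- the coordinate function `x₀` in `F_L`. -/
def xOf (L : Type*) [Field L] [Algebra ℚ L] (x₀ : F₀) : laurentBaseChange L F₀ :=
  ⟨coeffEmb L (x₀ : LaurentSeries ℚ), coeffEmb_mem_laurentBaseChange L x₀.2⟩

/-- the place `P` is a zero of `x - c`. -/
def Over (x₀ : F₀) (P : Place Ω (laurentBaseChange Ω F₀)) (c : Ω) : Prop :=
  0 < P.ord (xOf Ω x₀ - algebraMap Ω (laurentBaseChange Ω F₀) c)

/-- the effective divisor `P_0 + ... + P_{n-1}`. -/
def sumPl {n : ℕ} (P : Fin n → Place Ω (laurentBaseChange Ω F₀)) :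
    Divisor Ω (laurentBaseChange Ω F₀) :=
  ∑ i, Finsupp.single (P i) (1 : ℤ)

/-- the places `P i` lie over algebraically independent values of the coordinate function. -/
def IsGenTuple (x₀ : F₀) {n : ℕ} (P : Fin n → Place Ω (laurentBaseChange Ω F₀)) : Prop :=
  ∃ c : Fin n → Ω, AlgebraicIndependent ℚ c ∧ ∀ i, Over x₀ (P i) (c i)

theorem degree_sub_single {K F : Type*} [Field K] [Field F] [Algebra K F] (h : IsRRField K F)
    (P₀ : Place K F) (D : Divisor K F) :
    Divisor.degree (D - Finsupp.single P₀ (Divisor.degree D)) = 0 := by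
  rw [map_sub, Divisor.degree_single, h.deg_one]
  simp

/-- the class of `D - deg(D) P₀`. -/
def cls {K F : Type*} [Field K] [Field F] [Algebra K F] (h : IsRRField K F)
    (P₀ : Place K F) (D : Divisor K F) : Pic0 K F :=
  Pic0.mk ⟨D - Finsupp.single P₀ (Divisor.degree D), degree_sub_single h P₀ D⟩

end Fermat.Agent.Div
end
end MergeWrap_Lib_Div_Defs

section MergeWrap_Lib_Div_FieldExt -- from Lib/Div/FieldExt.lean

set_option autoImplicit false

/-!
# DIV, work package A (pure field theory; no function fields)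

Automorphisms of an uncountable algebraically closed field `Ω` of characteristic `0` and the
subfields `closField S` (algebraic closure of `ℚ(S)` in `Ω`).  Tools on main:
`Fermat.Agent.F3I2.exists_aut_translate`, `mem_range_of_finite_orbit` (F3/I2/Descent/AutC.lean),
Mathlib `IsAlgClosed.isAlgClosure_of_transcendence_basis`, `IsAlgClosure.equivOfEquiv`,
`IsAlgClosed.cardinal_eq_cardinal_transcendence_basis_of_aleph0_lt`, `Algebra.trdeg`.

Proofs: helper64.
-/

noncomputable section

namespace Fermat.Agent.Div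

open Cardinal

/-- two algebraically closed extensions of a countable field with the same uncountable
cardinality are isomorphic over the base. -/
theorem exists_ringEquiv_of_card_eq {L K₁ K₂ : Type} [Field L] [Field K₁] [Field K₂]
    [Algebra L K₁] [Algebra L K₂] [IsAlgClosed K₁] [IsAlgClosed K₂] [Countable L]
    (h1 : ℵ₀ < #K₁) (h12 : #K₁ = #K₂) :
    ∃ σ : K₁ ≃+* K₂, ∀ x : L, σ (algebraMap L K₁ x) = algebraMap L K₂ x := by
  classical
  obtain ⟨s₁, hs₁⟩ := exists_isTranscendenceBasis L K₁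
  obtain ⟨s₂, hs₂⟩ := exists_isTranscendenceBasis L K₂
  have hL : #L ≤ ℵ₀ := Cardinal.mk_le_aleph0
  have c1 : #K₁ = #s₁ := by
    simpa using IsAlgClosed.cardinal_eq_cardinal_transcendence_basis_of_aleph0_lt _ hs₁ hL h1
  have c2 : #K₂ = #s₂ := by
    simpa using
      IsAlgClosed.cardinal_eq_cardinal_transcendence_basis_of_aleph0_lt _ hs₂ hL (h12 ▸ h1)
  have hcard : #s₁ = #s₂ := by rw [← c1, ← c2, h12]
  obtain ⟨e⟩ := Cardinal.eq.mp hcard
  let E : Algebra.adjoin L (Set.range ((↑) : s₁ → K₁)) ≃ₐ[L]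
      Algebra.adjoin L (Set.range ((↑) : s₂ → K₂)) :=
    hs₁.1.aevalEquiv.symm.trans ((MvPolynomial.renameEquiv L e).trans hs₂.1.aevalEquiv)
  have i1 := IsAlgClosed.isAlgClosure_of_transcendence_basis _ hs₁
  have i2 := IsAlgClosed.isAlgClosure_of_transcendence_basis _ hs₂
  refine ⟨IsAlgClosure.equivOfEquiv K₁ K₂ E.toRingEquiv, ?_⟩
  intro a
  have h1 : algebraMap L K₁ a = algebraMap (Algebra.adjoin L (Set.range ((↑) : s₁ → K₁))) K₁
      (algebraMap L _ a) := rfl
  rw [h1, IsAlgClosure.equivOfEquiv_algebraMap]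
  have h2 : E.toRingEquiv (algebraMap L _ a) = algebraMap L _ a := E.commutes a
  rw [h2]
  rfl

/-- **(A1)** two embeddings of a countable field in an uncountable algebraically closed field are
conjugate under an automorphism.  (Transcendence bases of `Ω` over `φ₁ L` and over `φ₂ L` have
cardinality `#Ω`; `Ω` is an algebraic closure of `L[B]` in two ways.) -/
theorem exists_ringEquiv_of_embeddings {L Ω : Type} [Field L] [Field Ω] [IsAlgClosed Ω]
    [Countable L] (hΩ : ℵ₀ < #Ω) (φ₁ φ₂ : L →+* Ω) :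
    ∃ σ : Ω ≃+* Ω, ∀ x, σ (φ₁ x) = φ₂ x :=
  @exists_ringEquiv_of_card_eq L Ω Ω _ _ _ φ₁.toAlgebra φ₂.toAlgebra _ _ _ hΩ rfl

section

variable {Ω : Type*} [Field Ω]

/-- transfer of algebraicity along a ring homomorphism of base fields which is compatible with
the structure maps. -/
theorem isAlgebraic_of_ringHom_comp {A B : Type*} [Field A] [Field B] [Algebra A Ω]
    [Algebra B Ω] (f : A →+* B) (hf : (algebraMap B Ω).comp f = algebraMap A Ω) {a : Ω}
    (ha : IsAlgebraic A a) : IsAlgebraic B a := by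
  obtain ⟨p, hp0, hpa⟩ := ha
  refine ⟨p.map f, (Polynomial.map_ne_zero_iff f.injective).mpr hp0, ?_⟩
  rw [Polynomial.aeval_def, Polynomial.eval₂_map, hf, ← Polynomial.aeval_def]
  exact hpa

theorem isAlgebraic_subfield_mono {K₁ K₂ : Subfield Ω} (h : K₁ ≤ K₂) {a : Ω}
    (ha : IsAlgebraic K₁ a) : IsAlgebraic K₂ a :=
  isAlgebraic_of_ringHom_comp (Subfield.inclusion h) rfl ha

/-- **(A2)** `closField S` is algebraically closed. -/
theorem closField_isAlgClosed [IsAlgClosed Ω] (S : Set Ω) : IsAlgClosed ↥(closField S) := by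
  have h : IsAlgClosed ↥(algebraicClosure ↥(Subfield.closure S) Ω) :=
    IsAlgClosure.isAlgClosed ↥(Subfield.closure S)
  exact h

theorem subset_closField (S : Set Ω) : S ⊆ closField S := by
  intro a ha
  rw [SetLike.mem_coe, mem_closField]
  exact isAlgebraic_algebraMap (⟨a, Subfield.subset_closure ha⟩ : ↥(Subfield.closure S))

theorem closField_mono {S T : Set Ω} (h : S ⊆ T) : closField S ≤ closField T := by
  intro a ha
  rw [mem_closField] at ha ⊢
  exact isAlgebraic_subfield_mono (Subfield.closure_mono h) ha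

/-- the prime field maps into every subfield. -/
def ratToSubfield [Algebra ℚ Ω] (K : Subfield Ω) : ℚ →+* ↥K :=
  (algebraMap ℚ Ω).codRestrict K (fun q => by
    rw [eq_ratCast (algebraMap ℚ Ω) q]
    exact SubfieldClass.ratCast_mem K q)

/-- elements algebraic over the prime field lie in every `closField S`. -/
theorem mem_closField_of_isAlgebraic [Algebra ℚ Ω] {a : Ω} (ha : IsAlgebraic ℚ a) (S : Set Ω) :
    a ∈ closField S := by
  rw [mem_closField]
  exact isAlgebraic_of_ringHom_comp (ratToSubfield (Subfield.closure S)) rfl ha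

theorem countable_closField [CharZero Ω] (S : Set Ω) (hS : S.Countable) :
    Countable ↥(closField S) := by
  have h1 : #↥(Subfield.closure S) ≤ ℵ₀ := by
    refine (Subfield.cardinalMk_closure_le_max S).trans ?_
    exact max_le (Cardinal.mk_le_aleph0_iff.mpr hS.to_subtype) le_rfl
  have h2 : #↥(algebraicClosure ↥(Subfield.closure S) Ω) ≤ max #↥(Subfield.closure S) ℵ₀ :=
    Algebra.IsAlgebraic.cardinalMk_le_max _ _
  have h3 : #↥(algebraicClosure ↥(Subfield.closure S) Ω) ≤ ℵ₀ := h2.trans (max_le h1 le_rfl)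
  exact Cardinal.mk_le_aleph0_iff.mp h3

/-- `Aut(Ω / closField T) ≤ Aut(Ω / closField S)` for `S ⊆ T`. -/
theorem galOver_anti [Algebra ℚ Ω] {S T : Set Ω} (h : S ⊆ T) :
    galOver (Ω := Ω) T ≤ galOver S := by
  intro σ hσ
  rw [mem_galOver] at hσ ⊢
  intro a ha
  exact hσ a (closField_mono h ha)

/-! ### Bridge: `Subfield.closure S` versus `Algebra.adjoin ℚ S` -/

theorem closure_eq_adjoin_toSubfield [Algebra ℚ Ω] (S : Set Ω) :
    Subfield.closure S = (IntermediateField.adjoin ℚ S).toSubfield := by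
  rw [IntermediateField.adjoin_toSubfield]
  apply le_antisymm
  · exact Subfield.closure_mono Set.subset_union_right
  · rw [Subfield.closure_le]
    rintro x (⟨q, rfl⟩ | hx)
    · rw [eq_ratCast (algebraMap ℚ Ω) q]
      exact SubfieldClass.ratCast_mem _ q
    · exact Subfield.subset_closure hx

/-- membership in `closField S` is algebraicity over the subalgebra generated by `S`. -/
theorem mem_closField_iff_adjoin [Algebra ℚ Ω] {S : Set Ω} {a : Ω} :
    a ∈ closField S ↔ IsAlgebraic ↥(Algebra.adjoin ℚ S) a := by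
  rw [mem_closField, ← IntermediateField.isAlgebraic_adjoin_iff]
  have hle : Subfield.closure S ≤ (IntermediateField.adjoin ℚ S).toSubfield :=
    (closure_eq_adjoin_toSubfield S).le
  have hge : (IntermediateField.adjoin ℚ S).toSubfield ≤ Subfield.closure S :=
    (closure_eq_adjoin_toSubfield S).ge
  constructor
  · intro h
    exact isAlgebraic_of_ringHom_comp
      (A := ↥(Subfield.closure S)) (B := ↥(IntermediateField.adjoin ℚ S))
      (Subfield.inclusion hle) rfl h
  · intro h
    exact isAlgebraic_of_ringHom_comp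
      (A := ↥(IntermediateField.adjoin ℚ S)) (B := ↥(Subfield.closure S))
      (Subfield.inclusion hge) rfl h

theorem closField_eq_matroid_closure [Algebra ℚ Ω] [CharZero Ω] (S : Set Ω) :
    (closField S : Set Ω) = (AlgebraicIndependent.matroid ℚ Ω).closure S := by
  rw [AlgebraicIndependent.matroid_closure_eq]
  ext a
  rw [SetLike.mem_coe, mem_closField_iff_adjoin, SetLike.mem_coe,
    Subalgebra.mem_algebraicClosure]

/-- **(A3)** counting: `g` algebraically independent elements that are algebraic over the field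
generated by a set `S` of at most `g` elements: then `S` has exactly `g` elements and is
algebraically independent. -/
theorem algebraicIndependent_of_mem_closField [Algebra ℚ Ω] [CharZero Ω] {g : ℕ} (c : Fin g → Ω)
    (hc : AlgebraicIndependent ℚ c) (S : Finset Ω) (hS : S.card ≤ g)
    (hcS : ∀ i, c i ∈ closField (S : Set Ω)) :
    S.card = g ∧ AlgebraicIndependent ℚ (fun a : (S : Set Ω) => (a : Ω)) := by
  classical
  set M := AlgebraicIndependent.matroid ℚ Ω with hM
  have hsub : Set.range c ⊆ M.closure (S : Set Ω) := by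
    rintro _ ⟨i, rfl⟩
    rw [hM, ← closField_eq_matroid_closure]
    exact hcS i
  have hind : M.Indep (Set.range c) :=
    AlgebraicIndependent.matroid_indep_iff.mpr hc.to_subtype_range
  have hcard : (Set.range c).encard = g := by
    rw [← Set.image_univ, hc.injective.encard_image, Set.encard_univ]
    simp
  have h1 : (g : ℕ∞) ≤ M.eRk (S : Set Ω) := by
    rw [← hcard, ← M.eRk_closure_eq]
    exact hind.encard_le_eRk_of_subset hsub
  have h2 : M.eRk (S : Set Ω) ≤ (S.card : ℕ∞) := by
    have := M.eRk_le_encard (S : Set Ω)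
    rwa [Set.encard_coe_eq_coe_finsetCard] at this
  have h3 : (g : ℕ∞) ≤ (S.card : ℕ∞) := h1.trans h2
  have h4 : g ≤ S.card := by exact_mod_cast h3
  have h5 : S.card = g := le_antisymm hS h4
  refine ⟨h5, ?_⟩
  have h6 : M.eRk (S : Set Ω) = (S : Set Ω).encard := by
    rw [Set.encard_coe_eq_coe_finsetCard]
    apply le_antisymm h2
    rw [h5]
    exact h1
  have h7 : M.Indep (S : Set Ω) :=
    (Matroid.indep_iff_eRk_eq_encard_of_finite S.finite_toSet).mpr h6
  exact AlgebraicIndependent.matroid_indep_iff.mp h7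

/-- **(A4)** an element outside `closField S` is translated by the automorphisms over it. -/
theorem exists_galOver_translate [Algebra ℚ Ω] [IsAlgClosed Ω] [CharZero Ω] (S : Set Ω) {c : Ω}
    (hc : c ∉ closField S) (n : ℕ) : ∃ σ ∈ galOver (Ω := Ω) S, σ c = c + n := by
  have hK : IsAlgClosed ↥(closField S) := closField_isAlgClosed S
  have hc' : c ∉ Set.range (closField S).subtype := by
    rintro ⟨a, rfl⟩
    exact hc a.2
  obtain ⟨σ, hσ, hσc⟩ := Fermat.Agent.F3I2.exists_aut_translate (closField S).subtype c hc' n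
  refine ⟨Fermat.Agent.F3I2.descRatAlgEquiv Ω σ, ?_, ?_⟩
  · rw [mem_galOver]
    intro a ha
    exact hσ ⟨a, ha⟩
  · exact hσc

/-- **(A5)** an element with finite orbit under `Aut(Ω / closField S)` lies in `closField S`. -/
theorem mem_closField_of_finite_orbit [Algebra ℚ Ω] [IsAlgClosed Ω] [CharZero Ω] (S : Set Ω)
    (c : Ω) (h : {y : Ω | ∃ σ ∈ galOver (Ω := Ω) S, σ c = y}.Finite) : c ∈ closField S := by
  by_contra hc
  have hinj : Function.Injective (fun n : ℕ => c + (n : Ω)) := by
    intro a b hab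
    have : (a : Ω) = (b : Ω) := add_left_cancel hab
    exact_mod_cast this
  have hsub : Set.range (fun n : ℕ => c + (n : Ω)) ⊆
      {y : Ω | ∃ σ ∈ galOver (Ω := Ω) S, σ c = y} := by
    rintro _ ⟨n, rfl⟩
    exact exists_galOver_translate S hc n
  exact (Set.infinite_range_of_injective hinj) (h.subset hsub)

/-- **(A7)** in an algebraically independent family no member is algebraic over the others. -/
theorem not_mem_closField_of_algebraicIndependent [Algebra ℚ Ω] [CharZero Ω] {g : ℕ}
    (c : Fin g → Ω) (hc : AlgebraicIndependent ℚ c) (i : Fin g) :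
    c i ∉ closField (c '' {j | j ≠ i}) := by
  rw [mem_closField_iff_adjoin]
  have hi : i ∉ {j : Fin g | j ≠ i} := by simp
  exact hc.transcendental_adjoin hi

end

/-- **(A6)** an uncountable field of characteristic `0` contains algebraically independent
families of every finite length. -/
theorem exists_algebraicIndependent {Ω : Type} [Field Ω] [Algebra ℚ Ω] [CharZero Ω]
    (hΩ : ℵ₀ < #Ω) (g : ℕ) : ∃ c : Fin g → Ω, AlgebraicIndependent ℚ c := by
  classical
  obtain ⟨s, hs⟩ := exists_isTranscendenceBasis ℚ Ω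
  have hinf : Infinite ↥s := by
    by_contra hfin
    rw [not_infinite_iff_finite] at hfin
    have hle : #Ω ≤ ℵ₀ := by
      rcases isEmpty_or_nonempty ↥s with he | hne
      · have halg : Algebra.IsAlgebraic ℚ Ω := hs.isEmpty_iff_isAlgebraic.mp he
        exact (Algebra.IsAlgebraic.cardinalMk_le_max ℚ Ω).trans (max_le Cardinal.mk_le_aleph0 le_rfl)
      · have h := hs.lift_cardinalMk_eq_max_lift
        simp only [Cardinal.lift_id] at h
        rw [h]
        exact max_le (max_le Cardinal.mk_le_aleph0 Cardinal.mk_le_aleph0) le_rfl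
    exact absurd hΩ (not_lt.mpr hle)
  let f : Fin g → ↥s := fun i => Infinite.natEmbedding ↥s i.val
  have hf : Function.Injective f := fun a b hab =>
    Fin.val_injective ((Infinite.natEmbedding ↥s).injective hab)
  exact ⟨fun i => (f i : Ω), hs.1.comp f hf⟩

end Fermat.Agent.Div
end
end MergeWrap_Lib_Div_FieldExt

section MergeWrap_Lib_Div_Fibre -- from Lib/Div/Fibre.lean

set_option autoImplicit false
set_option linter.style.haveILetI false

/-!
# DIV, work package B: fibres of the coordinate function on the places of `F_Ω`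

`x = xOf Ω x₀`.  Everything follows from `divOf hΩ (x - c)` (finite support, degree `0`),
`Fermat.Agent.S17.Pts` (values, equivariance) and `arithmeticGalois F₀ σ • x = x`.
-/

noncomputable section

namespace Fermat.Agent.Div

open ModularCurve HahnSeries AlgebraicCurve Fermat.Agent.RR Fermat.Agent.F3I2

variable {Ω : Type*} [Field Ω] [Algebra ℚ Ω]
variable {F₀ : IntermediateField ℚ (LaurentSeries ℚ)}

/-- the coordinate function is fixed by the Galois action. -/
theorem smul_xOf (x₀ : F₀) (σ : Ω ≃ₐ[ℚ] Ω) :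
    arithmeticGalois F₀ σ • xOf Ω x₀ = xOf Ω x₀ :=
  Subtype.ext ((coe_arithmeticGalois_smul F₀ σ (xOf Ω x₀)).trans
    (coeffMap_coeffEmb σ (x₀ : LaurentSeries ℚ)))

/-- `Over` as a congruence. -/
theorem Over.congAt {x₀ : F₀} {P : Place Ω (laurentBaseChange Ω F₀)} {c : Ω}
    (h : Over x₀ P c) : Fermat.Agent.S17.Pts.CongAt P (xOf Ω x₀) c :=
  Or.inr h

/-- a function with a pole is not a constant. -/
theorem fibre_ne_const {P : Place Ω (laurentBaseChange Ω F₀)} {f : laurentBaseChange Ω F₀}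
    (hP : P.ord f < 0) (c : Ω) : f - algebraMap Ω (laurentBaseChange Ω F₀) c ≠ 0 := by
  intro h
  rw [sub_eq_zero.mp h, Fermat.Agent.S24Res.ord_algebraMap] at hP
  exact lt_irrefl _ hP

/-- a pole of `f` is a pole of `f - c`. -/
theorem fibre_ord_sub_neg {P : Place Ω (laurentBaseChange Ω F₀)} {f : laurentBaseChange Ω F₀}
    (hP : P.ord f < 0) (c : Ω) : P.ord (f - algebraMap Ω (laurentBaseChange Ω F₀) c) < 0 := by
  by_contra h
  have h1 : f - algebraMap Ω (laurentBaseChange Ω F₀) c ∈ P.toValuationSubring :=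
    Fermat.Agent.S24Res.mem_of_ord_nonneg P (not_lt.mp h)
  have h2 := add_mem h1 (P.algebraMap_mem' c)
  rw [sub_add_cancel] at h2
  have := Fermat.Agent.S24Res.ord_nonneg_of_mem P h2
  omega

/-- **(B1)** the fibres are finite. -/
theorem finite_over (hΩ : IsRRField Ω (laurentBaseChange Ω F₀)) (x₀ : F₀) (c : Ω) :
    {P : Place Ω (laurentBaseChange Ω F₀) | Over x₀ P c}.Finite :=
  Fermat.Agent.RR.finite_zeros hΩ (xOf Ω x₀ - algebraMap Ω (laurentBaseChange Ω F₀) c)

/-- **(B3)** the coordinate function has finitely many poles. -/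
theorem finite_poles (hΩ : IsRRField Ω (laurentBaseChange Ω F₀)) (x₀ : F₀) :
    {P : Place Ω (laurentBaseChange Ω F₀) | P.ord (xOf Ω x₀) < 0}.Finite :=
  Fermat.Agent.RR.finite_poles hΩ (xOf Ω x₀)

/-- **(B2)** the fibres are nonempty (the coordinate function has a pole, so `x - c` has a zero). -/
theorem exists_over (hΩ : IsRRField Ω (laurentBaseChange Ω F₀)) (x₀ : F₀)
    (hx : ∃ P : Place Ω (laurentBaseChange Ω F₀), P.ord (xOf Ω x₀) < 0) (c : Ω) :
    ∃ P : Place Ω (laurentBaseChange Ω F₀), Over x₀ P c := by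
  obtain ⟨P₀, hP₀⟩ := hx
  set f := xOf Ω x₀ - algebraMap Ω (laurentBaseChange Ω F₀) c with hf
  have hneg : P₀.ord f < 0 := fibre_ord_sub_neg hP₀ c
  by_contra hcon
  have hle : ∀ v : Place Ω (laurentBaseChange Ω F₀), v.ord f ≤ 0 := fun v => by
    by_contra h
    exact hcon ⟨v, not_le.mp h⟩
  have hdeg := degree_divOf hΩ f
  rw [degree_eq_sum hΩ] at hdeg
  have hmem : P₀ ∈ (divOf hΩ f).support := by
    rw [Finsupp.mem_support_iff, divOf_apply]
    exact ne_of_lt hneg
  have hlt : ∑ v ∈ (divOf hΩ f).support, (divOf hΩ f) v < 0 := by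
    refine Finset.sum_neg' (fun v _ => ?_) ⟨P₀, hmem, ?_⟩
    · rw [divOf_apply]; exact hle v
    · rw [divOf_apply]; exact hneg
  rw [hdeg] at hlt
  exact lt_irrefl _ hlt

/-- **(B5)** every place is a pole of `x` or lies over a value. -/
theorem pole_or_over (hΩ : IsRRField Ω (laurentBaseChange Ω F₀)) (x₀ : F₀)
    (hx : ∃ P : Place Ω (laurentBaseChange Ω F₀), P.ord (xOf Ω x₀) < 0)
    (P : Place Ω (laurentBaseChange Ω F₀)) :
    P.ord (xOf Ω x₀) < 0 ∨ ∃ c : Ω, Over x₀ P c := by
  by_cases hP : P.ord (xOf Ω x₀) < 0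
  · exact Or.inl hP
  · right
    obtain ⟨c, hc⟩ := exists_const_sub hΩ P (not_lt.mp hP)
    rcases hc with hc | hc
    · exfalso
      obtain ⟨P₀, hP₀⟩ := hx
      exact fibre_ne_const hP₀ c (sub_eq_zero.mpr hc)
    · exact ⟨c, hc⟩

theorem not_pole_of_over (x₀ : F₀) {P : Place Ω (laurentBaseChange Ω F₀)} {c : Ω}
    (h : Over x₀ P c) : 0 ≤ P.ord (xOf Ω x₀) :=
  h.congAt.ord_nonneg

theorem over_unique (x₀ : F₀) {P : Place Ω (laurentBaseChange Ω F₀)} {c c' : Ω}
    (h : Over x₀ P c) (h' : Over x₀ P c') : c = c' :=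
  h.congAt.unique h'.congAt

/-- **(B4)** equivariance. -/
theorem over_smul (x₀ : F₀) (σ : Ω ≃ₐ[ℚ] Ω) {P : Place Ω (laurentBaseChange Ω F₀)} {c : Ω}
    (h : Over x₀ P c) : Over x₀ (arithmeticGalois F₀ σ • P) (σ c) := by
  unfold Over at h ⊢
  have h1 : xOf Ω x₀ - algebraMap Ω (laurentBaseChange Ω F₀) (σ c)
      = arithmeticGalois F₀ σ • (xOf Ω x₀ - algebraMap Ω (laurentBaseChange Ω F₀) c) := by
    rw [smul_sub, smul_xOf, SemilinearAut.smul_algebraMap]
    rfl
  rw [h1, SemilinearAut.ord_smul]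
  exact h

theorem pole_smul (x₀ : F₀) (σ : Ω ≃ₐ[ℚ] Ω) {P : Place Ω (laurentBaseChange Ω F₀)}
    (h : P.ord (xOf Ω x₀) < 0) : (arithmeticGalois F₀ σ • P).ord (xOf Ω x₀) < 0 := by
  rw [Fermat.Agent.S17.Pts.ord_smul_of_fixed _ _ (smul_xOf x₀ σ)]
  exact h

/-- **(B6)** a place over a value in `closField S` has finite orbit under `Aut(Ω / closField S)`;
so has a pole of `x`. -/
theorem finite_orbit_of_over (hΩ : IsRRField Ω (laurentBaseChange Ω F₀)) (x₀ : F₀) (S : Set Ω)
    {P : Place Ω (laurentBaseChange Ω F₀)} {c : Ω} (h : Over x₀ P c) (hc : c ∈ closField S) :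
    (orbitOf F₀ (galOver S) P).Finite := by
  refine (finite_over hΩ x₀ c).subset ?_
  rintro _ ⟨σ, hσ, rfl⟩
  have := over_smul x₀ σ h
  rwa [mem_galOver.mp hσ c hc] at this

theorem finite_orbit_of_pole (hΩ : IsRRField Ω (laurentBaseChange Ω F₀)) (x₀ : F₀)
    (H : Subgroup (Ω ≃ₐ[ℚ] Ω)) {P : Place Ω (laurentBaseChange Ω F₀)}
    (h : P.ord (xOf Ω x₀) < 0) : (orbitOf F₀ H P).Finite := by
  refine (finite_poles hΩ x₀).subset ?_
  rintro _ ⟨σ, -, rfl⟩
  exact pole_smul x₀ σ h

/-- a function factoring through a map to a finite type has finite range. -/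
theorem fibre_finite_range_of_factors {α β γ : Type*} [Finite γ] (o : α → β) (r : α → γ)
    (hr : ∀ a b, r a = r b → o a = o b) : (Set.range o).Finite := by
  classical
  have hfin : (Set.range fun x : Set.range r => o x.2.choose).Finite := Set.finite_range _
  refine hfin.subset ?_
  rintro _ ⟨a, rfl⟩
  refine ⟨⟨r a, a, rfl⟩, ?_⟩
  exact hr _ _ (Exists.choose_spec (⟨a, rfl⟩ : ∃ b, r b = r a))

/-- **(B7)** a divisor all of whose points have finite orbit has finite orbit. -/
theorem finite_orbit_divisor (H : Subgroup (Ω ≃ₐ[ℚ] Ω))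
    (D : Divisor Ω (laurentBaseChange Ω F₀))
    (h : ∀ P ∈ D.support, (orbitOf F₀ H P).Finite) : (orbitOf F₀ H D).Finite := by
  classical
  -- the orbit is the range of `σ ↦ σ • D`, which factors through the finite product of orbits
  haveI : ∀ P : D.support, Finite (orbitOf F₀ H (P : Place Ω (laurentBaseChange Ω F₀))) :=
    fun P => (h P P.2).to_subtype
  let r : H → (∀ P : D.support, orbitOf F₀ H (P : Place Ω (laurentBaseChange Ω F₀))) :=
    fun σ P => ⟨arithmeticGalois F₀ (σ : Ω ≃ₐ[ℚ] Ω) • (P : Place Ω (laurentBaseChange Ω F₀)),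
      σ, σ.2, rfl⟩
  let o : H → Divisor Ω (laurentBaseChange Ω F₀) :=
    fun σ => arithmeticGalois F₀ (σ : Ω ≃ₐ[ℚ] Ω) • D
  have hfac : ∀ a b, r a = r b → o a = o b := by
    intro a b hab
    have hP : ∀ P ∈ D.support, arithmeticGalois F₀ (a : Ω ≃ₐ[ℚ] Ω) • P
        = arithmeticGalois F₀ (b : Ω ≃ₐ[ℚ] Ω) • P := fun P hP => by
      have := congrArg (fun f => ((f ⟨P, hP⟩ : orbitOf F₀ H P) :
        Place Ω (laurentBaseChange Ω F₀))) hab
      exact this
    show arithmeticGalois F₀ (a : Ω ≃ₐ[ℚ] Ω) • D = arithmeticGalois F₀ (b : Ω ≃ₐ[ℚ] Ω) • D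
    rw [SemilinearAut.divisor_smul_def, SemilinearAut.divisor_smul_def]
    rw [Finsupp.mapDomain, Finsupp.mapDomain]
    refine Finset.sum_congr rfl fun Q hQ => ?_
    show Finsupp.single (arithmeticGalois F₀ (a : Ω ≃ₐ[ℚ] Ω) • Q) (D Q)
      = Finsupp.single (arithmeticGalois F₀ (b : Ω ≃ₐ[ℚ] Ω) • Q) (D Q)
    rw [hP Q hQ]
  refine (fibre_finite_range_of_factors o r hfac).subset ?_
  rintro _ ⟨σ, hσ, rfl⟩
  exact ⟨⟨σ, hσ⟩, rfl⟩

/-- **(B8)** the points of a divisor with finite orbit have finite orbit. -/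
theorem finite_orbit_of_mem_support (H : Subgroup (Ω ≃ₐ[ℚ] Ω))
    (D : Divisor Ω (laurentBaseChange Ω F₀)) (h : (orbitOf F₀ H D).Finite)
    {P : Place Ω (laurentBaseChange Ω F₀)} (hP : P ∈ D.support) : (orbitOf F₀ H P).Finite := by
  refine (h.biUnion (t := fun E => ((E.support : Finset _) : Set _))
    (fun E _ => E.support.finite_toSet)).subset ?_
  rintro _ ⟨σ, hσ, rfl⟩
  refine Set.mem_biUnion (⟨σ, hσ, rfl⟩ : arithmeticGalois F₀ σ • D ∈ orbitOf F₀ H D) ?_
  rw [Finset.mem_coe, Finsupp.mem_support_iff, SemilinearAut.divisor_smul_apply_smul]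
  exact Finsupp.mem_support_iff.mp hP

/-- **(B9)** if `P` lies over `c` and has finite orbit under `Aut(Ω / closField S)`, then
`c ∈ closField S`. -/
theorem mem_closField_of_finite_orbit_place [IsAlgClosed Ω] [CharZero Ω] (x₀ : F₀) (S : Set Ω)
    {P : Place Ω (laurentBaseChange Ω F₀)} {c : Ω} (h : Over x₀ P c)
    (hfin : (orbitOf F₀ (galOver S) P).Finite) : c ∈ closField S := by
  refine mem_closField_of_finite_orbit S c ?_
  refine (hfin.image (fun Q => Fermat.Agent.S17.Pts.ev Q (xOf Ω x₀))).subset ?_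
  rintro _ ⟨σ, hσ, rfl⟩
  refine ⟨arithmeticGalois F₀ σ • P, ⟨σ, hσ, rfl⟩, ?_⟩
  exact Fermat.Agent.S17.Pts.ev_eq_of_congAt (over_smul x₀ σ h).congAt

end Fermat.Agent.Div
end
end MergeWrap_Lib_Div_Fibre

section MergeWrap_Lib_Div_NonSpecial -- from Lib/Div/NonSpecial.lean

set_option autoImplicit false
set_option linter.unusedSectionVars false
set_option linter.style.haveILetI false

/-!
# DIV, work package C: generic effective divisors of degree `≤ g` are nonspecial

`(L2)` of the blueprint.  `ell_sumPl_eq_one` is proved by induction on `n` from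
`finite_ell_add_single_ne` (pure Riemann-Roch) and the translation automorphisms
`exists_galOver_translate` (FieldExt.lean), with `finite_over`, `over_smul` (Fibre.lean).
-/

noncomputable section

namespace Fermat.Agent.Div

open ModularCurve HahnSeries AlgebraicCurve Fermat.Agent.RR Fermat.Agent.F3I2

section General

variable {K F : Type*} [Field K] [Field F] [Algebra K F]

/-- the action of a semilinear automorphism on a Riemann-Roch space. -/
theorem nsp_smul_mem (g : SemilinearAut K F) {D : Divisor K F} {f : F}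
    (hf : f ∈ riemannRochSpace D) : g • f ∈ riemannRochSpace (g • D) := by
  rw [mem_riemannRochSpace_iff] at hf ⊢
  intro w
  rcases hf (g⁻¹ • w) with h0 | h1
  · left
    rw [h0, smul_zero]
  · right
    rw [SemilinearAut.divisor_smul_apply]
    have := SemilinearAut.ord_smul g (g⁻¹ • w) f
    rw [smul_inv_smul] at this
    rw [this]
    exact h1

/-- the additive equivalence `L(D) ≃ L(g • D)`, `f ↦ g • f`. -/
def nspEquiv (g : SemilinearAut K F) (D : Divisor K F) :
    riemannRochSpace D ≃+ riemannRochSpace (g • D) where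
  toFun f := ⟨g • (f : F), nsp_smul_mem g f.2⟩
  invFun f := ⟨g⁻¹ • (f : F), by
    have := nsp_smul_mem g⁻¹ f.2
    rwa [inv_smul_smul] at this⟩
  left_inv f := Subtype.ext (inv_smul_smul g (f : F))
  right_inv f := Subtype.ext (smul_inv_smul g (f : F))
  map_add' f f' := Subtype.ext (smul_add g (f : F) (f' : F))

/-- **(C1)** `ℓ` is invariant under semilinear automorphisms. -/
theorem ell_smul (g : SemilinearAut K F) (D : Divisor K F) : ell (g • D) = ell D := by
  have hrank : Module.rank K (riemannRochSpace D) = Module.rank K (riemannRochSpace (g • D)) := by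
    refine rank_eq_of_equiv_equiv (SemilinearAut.baseAut g) (nspEquiv g D)
      (SemilinearAut.baseAut g).bijective ?_
    intro c f
    apply Subtype.ext
    show g • ((c • f : riemannRochSpace D) : F) = SemilinearAut.baseAut g c • (g • (f : F))
    rw [Submodule.coe_smul, Algebra.smul_def, Algebra.smul_def, smul_mul',
      SemilinearAut.smul_algebraMap]
  rw [ell_def, ell_def, Module.finrank, Module.finrank, hrank]

/-- **(C0)** (Riemann-Roch) if `D ≥ 0`, `ℓ(D) = 1` and `deg D < g`, then `ℓ(D + P) = 1` for all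
places `P` outside a finite set (the zeros of a differential vanishing on `D`). -/
theorem finite_ell_add_single_ne (h : IsRRField K F) (D : Divisor K F) (hD : 0 ≤ D)
    (hell : ell D = 1) (hdeg : Divisor.degree D < (genusFF K F : ℤ)) :
    {P : Place K F | ell (D + Finsupp.single P 1) ≠ 1}.Finite := by
  classical
  obtain ⟨W, hW⟩ := riemann_roch h
  have h1 := hW D
  rw [hell] at h1
  have hpos : 1 ≤ ell (W - D) := by
    have : (1 : ℤ) ≤ (ell (W - D) : ℤ) := by
      push_cast at h1
      linarith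
    exact_mod_cast this
  have hne : riemannRochSpace (W - D) ≠ ⊥ := by
    intro hbot
    rw [ell_def, hbot, finrank_bot] at hpos
    omega
  obtain ⟨ω, hω, hω0⟩ := Submodule.exists_mem_ne_zero_of_ne_bot hne
  set E := W - D + divOf h ω with hE
  refine (E.support.finite_toSet).subset ?_
  intro P hP
  rw [Set.mem_ofPred_eq] at hP
  rw [Finset.mem_coe, Finsupp.mem_support_iff]
  intro hEP
  apply hP
  -- `ω ∉ L(W - D - P)`
  have hord : P.ord ω = -(W - D) P := by
    have : (W - D) P + P.ord ω = 0 := by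
      have := hEP
      rw [hE, Finsupp.add_apply, divOf_apply] at this
      exact this
    linarith
  have hnot : ω ∉ riemannRochSpace (W - D - Finsupp.single P 1) := by
    intro hmem
    have := ((mem_riemannRochSpace_iff.mp hmem) P).resolve_left hω0
    rw [Finsupp.sub_apply, Finsupp.single_eq_same, hord] at this
    linarith
  have hstep : ell (W - D - Finsupp.single P 1 + Finsupp.single P 1)
      = ell (W - D - Finsupp.single P 1) + 1 :=
    (ell_add_single_eq_iff h _ P).mpr ⟨ω, by rwa [sub_add_cancel], hnot⟩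
  rw [sub_add_cancel] at hstep
  have h2 := hW (D + Finsupp.single P 1)
  have h3 : W - (D + Finsupp.single P 1) = W - D - Finsupp.single P 1 := by abel
  rw [h3, degree_add_single h] at h2
  have h4 : (ell (D + Finsupp.single P 1) : ℤ) = 1 := by
    have h5 : (ell (W - D) : ℤ) = (ell (W - D - Finsupp.single P 1) : ℤ) + 1 := by
      exact_mod_cast hstep
    push_cast at h1
    linarith
  exact_mod_cast h4

end General

variable {Ω : Type*} [Field Ω] [Algebra ℚ Ω] [IsAlgClosed Ω] [CharZero Ω]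
variable {F₀ : IntermediateField ℚ (LaurentSeries ℚ)}

theorem nsp_sumPl_succ {n : ℕ} (P : Fin (n + 1) → Place Ω (laurentBaseChange Ω F₀)) :
    sumPl P = sumPl (fun i : Fin n => P i.castSucc) + Finsupp.single (P (Fin.last n)) 1 := by
  unfold sumPl
  rw [Fin.sum_univ_castSucc]

theorem nsp_sumPl_nonneg {n : ℕ} (P : Fin n → Place Ω (laurentBaseChange Ω F₀)) :
    0 ≤ sumPl P := by
  unfold sumPl
  refine Finset.sum_nonneg fun i _ => ?_
  rw [Finsupp.le_def]
  intro v
  by_cases hv : v = P i
  · rw [hv, Finsupp.single_eq_same]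
    exact zero_le_one
  · rw [Finsupp.single_eq_of_ne hv]
    exact le_rfl

theorem nsp_degree_sumPl (hΩ : IsRRField Ω (laurentBaseChange Ω F₀)) {n : ℕ}
    (P : Fin n → Place Ω (laurentBaseChange Ω F₀)) : Divisor.degree (sumPl P) = n := by
  unfold sumPl
  rw [map_sum]
  simp only [Divisor.degree_single, hΩ.deg_one, Nat.cast_one, mul_one, Finset.sum_const,
    Finset.card_univ, Fintype.card_fin, nsmul_eq_mul]

theorem nsp_support_sumPl {n : ℕ} (P : Fin n → Place Ω (laurentBaseChange Ω F₀))
    {Q : Place Ω (laurentBaseChange Ω F₀)} (hQ : Q ∈ (sumPl P).support) : ∃ i, Q = P i := by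
  classical
  by_contra hcon
  rw [not_exists] at hcon
  rw [Finsupp.mem_support_iff] at hQ
  apply hQ
  unfold sumPl
  rw [Finsupp.finset_sum_apply]
  refine Finset.sum_eq_zero fun i _ => ?_
  exact Finsupp.single_eq_of_ne (hcon i)

/-- **(C) = (L2)**: a generic effective divisor of degree `n ≤ g` has `ℓ = 1`. -/
theorem ell_sumPl_eq_one (hΩ : IsRRField Ω (laurentBaseChange Ω F₀)) (x₀ : F₀) {n : ℕ}
    (hn : n ≤ genusFF Ω (laurentBaseChange Ω F₀))
    (P : Fin n → Place Ω (laurentBaseChange Ω F₀)) (hP : IsGenTuple x₀ P) :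
    ell (sumPl P) = 1 := by
  classical
  induction n with
  | zero =>
    have : sumPl P = 0 := by
      unfold sumPl
      exact Finset.sum_empty
    rw [this, ell_zero hΩ]
  | succ n ih =>
    obtain ⟨c, hc, hover⟩ := hP
    set P' : Fin n → Place Ω (laurentBaseChange Ω F₀) := fun i => P i.castSucc with hP'
    set D := sumPl P' with hD
    have hgen' : IsGenTuple x₀ P' :=
      ⟨fun i => c i.castSucc, hc.comp _ (Fin.castSucc_injective n), fun i => hover i.castSucc⟩
    have hellD : ell D = 1 := ih (by omega) P' hgen'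
    have hD0 : 0 ≤ D := nsp_sumPl_nonneg P'
    have hdegD : Divisor.degree D = n := nsp_degree_sumPl hΩ P'
    rw [nsp_sumPl_succ P]
    by_contra hbad
    -- the set of values of the first `n` points
    set S : Set Ω := c '' {j | j ≠ Fin.last n} with hS
    have hcS : ∀ i : Fin n, c i.castSucc ∈ closField S := fun i =>
      subset_closField S ⟨i.castSucc, (Fin.castSucc_lt_last i).ne, rfl⟩
    have hlast : c (Fin.last n) ∉ closField S :=
      not_mem_closField_of_algebraicIndependent c hc (Fin.last n)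
    -- translations
    choose σ hσS hσ using fun m : ℕ => exists_galOver_translate S hlast m
    -- the orbit of `D` is finite
    have hfinD : (orbitOf F₀ (galOver S) D).Finite := by
      refine finite_orbit_divisor (galOver S) D fun Q hQ => ?_
      obtain ⟨i, rfl⟩ := nsp_support_sumPl P' hQ
      exact finite_orbit_of_over hΩ x₀ S (hover i.castSucc) (hcS i)
    -- pigeonhole: infinitely many `m` with the same `σ m • D`
    have hmaps : ∀ m : ℕ, arithmeticGalois F₀ (σ m) • D ∈ orbitOf F₀ (galOver S) D :=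
      fun m => ⟨σ m, hσS m, rfl⟩
    haveI : Finite ↥(orbitOf F₀ (galOver S) D) := hfinD.to_subtype
    obtain ⟨y, hy⟩ := Finite.exists_infinite_fiber
      (fun m : ℕ => (⟨arithmeticGalois F₀ (σ m) • D, hmaps m⟩ : ↥(orbitOf F₀ (galOver S) D)))
    set D' : Divisor Ω (laurentBaseChange Ω F₀) := (y : Divisor Ω (laurentBaseChange Ω F₀))
      with hD'
    have hinf' : {m : ℕ | arithmeticGalois F₀ (σ m) • D = D'}.Infinite := by
      have h1 := Set.infinite_coe_iff.mp hy
      refine h1.mono ?_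
      intro m hm
      have hm' : (⟨arithmeticGalois F₀ (σ m) • D, hmaps m⟩ : ↥(orbitOf F₀ (galOver S) D)) = y :=
        hm
      exact congrArg Subtype.val hm'
    -- `D'` is effective of degree `n < g` with `ℓ = 1`
    obtain ⟨m₀, hm₀⟩ := hinf'.nonempty
    have hm₀' : arithmeticGalois F₀ (σ m₀) • D = D' := hm₀
    have hD'0 : 0 ≤ D' := by
      rw [← hm₀', Finsupp.le_def]
      intro w
      rw [SemilinearAut.divisor_smul_apply]
      exact Finsupp.le_def.mp hD0 _
    have hD'ell : ell D' = 1 := by rw [← hm₀', ell_smul, hellD]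
    have hD'deg : Divisor.degree D' < (genusFF Ω (laurentBaseChange Ω F₀) : ℤ) := by
      rw [← hm₀', SemilinearAut.degree_smul, hdegD]
      exact_mod_cast hn
    have hfin := finite_ell_add_single_ne hΩ D' hD'0 hD'ell hD'deg
    -- the points `σ m • P_last` are pairwise distinct and all bad
    have hinj : Set.InjOn (fun m : ℕ => arithmeticGalois F₀ (σ m) • P (Fin.last n))
        {m | arithmeticGalois F₀ (σ m) • D = D'} := by
      intro m _ m' _ hmm
      have h1 := over_smul x₀ (σ m) (hover (Fin.last n))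
      have h2 := over_smul x₀ (σ m') (hover (Fin.last n))
      have hmm' : arithmeticGalois F₀ (σ m) • P (Fin.last n)
          = arithmeticGalois F₀ (σ m') • P (Fin.last n) := hmm
      rw [hmm'] at h1
      have h3 := over_unique x₀ h1 h2
      rw [hσ m, hσ m'] at h3
      have h4 : (m : Ω) = (m' : Ω) := add_left_cancel h3
      exact_mod_cast h4
    have hsub : (fun m : ℕ => arithmeticGalois F₀ (σ m) • P (Fin.last n)) ''
        {m | arithmeticGalois F₀ (σ m) • D = D'} ⊆
        {Q | ell (D' + Finsupp.single Q 1) ≠ 1} := by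
      rintro Q ⟨m, hm, rfl⟩
      show ell (D' + Finsupp.single (arithmeticGalois F₀ (σ m) • P (Fin.last n)) 1) ≠ 1
      have hm' : arithmeticGalois F₀ (σ m) • D = D' := hm
      rw [← hm', ← SemilinearAut.smul_single, ← smul_add, ell_smul]
      exact hbad
    exact (hinf'.image hinj) (hfin.subset hsub)

end Fermat.Agent.Div
end
end MergeWrap_Lib_Div_NonSpecial

section MergeWrap_Lib_Div_Transfer -- from Lib/Div/Transfer.lean

set_option autoImplicit false
set_option linter.unusedSectionVars false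

/-!
# DIV, work package D: transfer of genericity, `(L3)` of the blueprint  (helper70)

`x = cls (P_1 + .. + P_g)` generic with `ℓ(P_1 + .. + P_g) = 1`, `z = cls E`, `E ≥ 0` of degree `g`,
and (H): for every finite `S ⊂ Ω`, if the orbit of `z` under `Aut(Ω / closField S)` is finite
then so is the orbit of `x`.  Then `E = Q_1 + .. + Q_g` with `(Q_i)` generic.

Proof: `S :=` the set of values of `x` at the points of `E` (`≤ g` elements).  The orbit of `E` under
`Aut(Ω / closField S)` is finite (B6, B7), hence that of `z`, hence that of `x` (H), hence that of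
`P_1 + .. + P_g` (uniqueness, `ℓ = 1`), hence of each `P_i` (B8), so `c_i ∈ closField S` (B9);
now (A3): `#S = g` and `S` is algebraically independent; in particular no point of `E` is a pole.
-/

noncomputable section

namespace Fermat.Agent.Div

open ModularCurve HahnSeries AlgebraicCurve Fermat.Agent.RR Fermat.Agent.F3I2

section General

variable {K F : Type*} [Field K] [Field F] [Algebra K F]

/-- two divisors with the same class differ by a principal divisor. -/
theorem tr_exists_divOf_of_cls_eq (h : IsRRField K F) (P₀ : Place K F) {D D' : Divisor K F}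
    (hdeg : Divisor.degree D = Divisor.degree D') (hc : cls h P₀ D = cls h P₀ D') :
    ∃ f : F, f ≠ 0 ∧ D' - D = divOf h f := by
  unfold cls at hc
  have h1 := QuotientAddGroup.eq.mp hc
  rw [AddSubgroup.mem_addSubgroupOf] at h1
  have h2 : ((-(⟨D - Finsupp.single P₀ (Divisor.degree D), degree_sub_single h P₀ D⟩ :
      Divisor.degZero (K := K) (F := F)) +
      ⟨D' - Finsupp.single P₀ (Divisor.degree D'), degree_sub_single h P₀ D'⟩ :
      Divisor.degZero (K := K) (F := F)) : Divisor K F) = D' - D := by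
    rw [AddSubgroup.coe_add, AddSubgroup.coe_neg]
    show -(D - Finsupp.single P₀ (Divisor.degree D)) +
      (D' - Finsupp.single P₀ (Divisor.degree D')) = D' - D
    rw [hdeg]
    abel
  rw [h2] at h1
  exact (canon_mem_principal_iff h _).mp h1

/-- the divisor of a nonzero constant is zero. -/
theorem tr_divOf_algebraMap (h : IsRRField K F) {c : K} (hc : c ≠ 0) :
    divOf h (algebraMap K F c) = 0 := by
  ext v
  rw [divOf_apply, Finsupp.zero_apply]
  have h1 : algebraMap K F c * algebraMap K F c⁻¹ = 1 := by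
    rw [← map_mul, mul_inv_cancel₀ hc, map_one]
  have h2 : algebraMap K F c⁻¹ * algebraMap K F c = 1 := by
    rw [mul_comm]; exact h1
  let u : v.toValuationSubringˣ :=
    ⟨⟨algebraMap K F c, v.algebraMap_mem' c⟩, ⟨algebraMap K F c⁻¹, v.algebraMap_mem' c⁻¹⟩,
      Subtype.ext h1, Subtype.ext h2⟩
  exact v.ord_coe_unit u

/-- effective divisors of the same degree with the same class, one of them with `ℓ = 1`, are
equal (general form). -/
theorem tr_eq_of_cls_eq (h : IsRRField K F) (P₀ : Place K F) (D D' : Divisor K F)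
    (hD : 0 ≤ D) (hD' : 0 ≤ D') (hell : ell D = 1)
    (hdeg : Divisor.degree D = Divisor.degree D') (hc : cls h P₀ D = cls h P₀ D') : D = D' := by
  obtain ⟨f, hf, hfD⟩ := tr_exists_divOf_of_cls_eq h P₀ hdeg hc
  have hfL : f ∈ riemannRochSpace D := by
    rw [mem_riemannRochSpace_iff_le h hf, ← hfD]
    rw [Finsupp.le_def] at hD' ⊢
    intro v
    have := hD' v
    simp only [Finsupp.neg_apply, Finsupp.sub_apply, Finsupp.zero_apply] at this ⊢
    linarith
  obtain ⟨c, hc'⟩ := eq_algebraMap_of_mem_of_ell_eq_one h hD hell hfL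
  have hc0 : c ≠ 0 := by
    rintro rfl
    rw [map_zero] at hc'
    exact hf hc'
  rw [hc', tr_divOf_algebraMap h hc0] at hfD
  exact (sub_eq_zero.mp hfD).symm

/-- every class is `cls E` for an effective `E` of degree `g` (general form). -/
theorem tr_exists_effective_cls (h : IsRRField K F) (P₀ : Place K F) (z : Pic0 K F) :
    ∃ E : Divisor K F, 0 ≤ E ∧ Divisor.degree E = (genusFF K F : ℤ) ∧ z = cls h P₀ E := by
  obtain ⟨X, rfl⟩ := Pic0.mk_surjective z
  have hX : Divisor.degree (X : Divisor K F) = 0 := Divisor.mem_degZero.mp X.2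
  set D : Divisor K F := (X : Divisor K F) + Finsupp.single P₀ (genusFF K F : ℤ) with hD
  have hdegD : Divisor.degree D = (genusFF K F : ℤ) := by
    rw [hD, map_add, hX, degree_single_one h, zero_add]
  have hpos : 0 < Module.finrank K (riemannRochSpace D) := by
    have h1 := riemann_inequality h D
    rw [hdegD, ell_def] at h1
    have : (0 : ℤ) < (Module.finrank K (riemannRochSpace D) : ℤ) := by linarith
    exact_mod_cast this
  have hfin := finite_riemannRochSpace h D
  obtain ⟨⟨f, hfL⟩, hf0⟩ := Module.finrank_pos_iff_exists_ne_zero.mp hpos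
  have hf : f ≠ 0 := fun h0 => hf0 (Subtype.ext h0)
  have hle := (mem_riemannRochSpace_iff_le h hf).mp hfL
  refine ⟨D + divOf h f, ?_, ?_, ?_⟩
  · rw [Finsupp.le_def] at hle ⊢
    intro v
    have := hle v
    simp only [Finsupp.neg_apply, Finsupp.add_apply, Finsupp.zero_apply] at this ⊢
    linarith
  · rw [map_add, hdegD, degree_divOf, add_zero]
  · unfold cls
    refine QuotientAddGroup.eq.mpr ?_
    rw [AddSubgroup.mem_addSubgroupOf, canon_mem_principal_iff h]
    refine ⟨f, hf, ?_⟩
    rw [AddSubgroup.coe_add, AddSubgroup.coe_neg]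
    show -(X : Divisor K F) + (D + divOf h f - Finsupp.single P₀ (Divisor.degree (D + divOf h f)))
      = divOf h f
    rw [map_add, hdegD, degree_divOf, add_zero, hD]
    abel

/-- an effective divisor of degree `g` is a sum of `g` places. -/
theorem tr_exists_tuple (h : IsRRField K F) :
    ∀ (g : ℕ) (E : Divisor K F), 0 ≤ E → Divisor.degree E = (g : ℤ) →
      ∃ Q : Fin g → Place K F, E = ∑ i, Finsupp.single (Q i) (1 : ℤ) := by
  classical
  intro g
  induction g with
  | zero =>
    intro E hE hdeg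
    refine ⟨Fin.elim0, ?_⟩
    rw [Finset.univ_eq_empty, Finset.sum_empty]
    exact eq_zero_of_nonneg_of_degree_eq_zero h hE (by simpa using hdeg)
  | succ g ih =>
    intro E hE hdeg
    have hne : E ≠ 0 := by
      rintro rfl
      rw [map_zero] at hdeg
      have : (0 : ℤ) < ((g + 1 : ℕ) : ℤ) := by positivity
      omega
    obtain ⟨P, hP⟩ : ∃ P, E P ≠ 0 := by
      by_contra hcon
      push Not at hcon
      exact hne (Finsupp.ext hcon)
    have hEP : 1 ≤ E P := by
      have h0 : (0 : ℤ) ≤ E P := by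
        have := Finsupp.le_def.mp hE P
        simpa using this
      omega
    have hE' : 0 ≤ E - Finsupp.single P 1 := by
      rw [Finsupp.le_def]
      intro v
      rw [Finsupp.zero_apply, Finsupp.sub_apply, Finsupp.single_apply]
      split_ifs with hv
      · rw [← hv]; omega
      · have := Finsupp.le_def.mp hE v
        simpa using this
    have hdeg' : Divisor.degree (E - Finsupp.single P 1) = (g : ℤ) := by
      rw [map_sub, hdeg, degree_single_one h]
      push_cast
      ring
    obtain ⟨Q', hQ'⟩ := ih _ hE' hdeg'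
    refine ⟨Fin.snoc Q' P, ?_⟩
    rw [Fin.sum_univ_castSucc]
    simp only [Fin.snoc_castSucc, Fin.snoc_last]
    rw [← hQ']
    abel

/-- translation of `D - d P₀` by an automorphism fixing `P₀`. -/
theorem tr_smul_sub_single (g : SemilinearAut K F) (D : Divisor K F) (P₀ : Place K F) (d : ℤ)
    (hg : g • P₀ = P₀) :
    g • (D - Finsupp.single P₀ d) = g • D - Finsupp.single P₀ d := by
  classical
  ext v
  rw [SemilinearAut.divisor_smul_apply, Finsupp.sub_apply, Finsupp.sub_apply,
    SemilinearAut.divisor_smul_apply, Finsupp.single_apply, Finsupp.single_apply]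
  have hiff : P₀ = g⁻¹ • v ↔ P₀ = v := by
    constructor
    · intro h
      rw [eq_inv_smul_iff] at h
      rw [← h, hg]
    · intro h
      rw [eq_inv_smul_iff, ← h, hg]
  by_cases hv : P₀ = v
  · rw [if_pos (hiff.mpr hv), if_pos hv]
  · rw [if_neg (fun h => hv (hiff.mp h)), if_neg hv]

/-- translates of effective divisors are effective. -/
theorem tr_smul_nonneg (g : SemilinearAut K F) {D : Divisor K F} (hD : 0 ≤ D) : 0 ≤ g • D := by
  rw [Finsupp.le_def] at hD ⊢
  intro v
  rw [SemilinearAut.divisor_smul_apply]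
  exact hD _

end General

variable {Ω : Type*} [Field Ω] [Algebra ℚ Ω] [IsAlgClosed Ω] [CharZero Ω]
variable {F₀ : IntermediateField ℚ (LaurentSeries ℚ)}

omit [IsAlgClosed Ω] [CharZero Ω] in
/-- the points of `sumPl P` are in its support. -/
theorem tr_mem_support_sumPl {n : ℕ} (P : Fin n → Place Ω (laurentBaseChange Ω F₀)) (i : Fin n) :
    P i ∈ (sumPl P).support := by
  classical
  rw [Finsupp.mem_support_iff]
  unfold sumPl
  rw [Finsupp.finsetSum_apply]
  have h1 : ∀ j ∈ (Finset.univ : Finset (Fin n)),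
      (0 : ℤ) ≤ (Finsupp.single (P j) (1 : ℤ)) (P i) := by
    intro j _
    rw [Finsupp.single_apply]
    split_ifs <;> simp
  have h2 := Finset.single_le_sum h1 (Finset.mem_univ i)
  rw [Finsupp.single_eq_same] at h2
  omega

/-- the class of a Galois-translated divisor. -/
theorem smul_cls (hΩ : IsRRField Ω (laurentBaseChange Ω F₀))
    (P₀ : Place Ω (laurentBaseChange Ω F₀)) (σ : Ω ≃ₐ[ℚ] Ω)
    (hσ : arithmeticGalois F₀ σ • P₀ = P₀) (D : Divisor Ω (laurentBaseChange Ω F₀)) :
    arithmeticGalois F₀ σ • cls hΩ P₀ D = cls hΩ P₀ (arithmeticGalois F₀ σ • D) := by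
  unfold cls
  rw [SemilinearAut.pic0_smul_mk]
  congr 1
  apply Subtype.ext
  rw [SemilinearAut.coe_degZeroSMulHom]
  show arithmeticGalois F₀ σ • (D - Finsupp.single P₀ (Divisor.degree D)) =
    arithmeticGalois F₀ σ • D - Finsupp.single P₀ (Divisor.degree (arithmeticGalois F₀ σ • D))
  rw [SemilinearAut.degree_smul]
  exact tr_smul_sub_single _ D P₀ _ hσ

/-- effective divisors of the same degree with the same class, one of them with `ℓ = 1`, are
equal. -/
theorem eq_of_cls_eq (hΩ : IsRRField Ω (laurentBaseChange Ω F₀))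
    (P₀ : Place Ω (laurentBaseChange Ω F₀)) (D D' : Divisor Ω (laurentBaseChange Ω F₀))
    (hD : 0 ≤ D) (hD' : 0 ≤ D') (hell : ell D = 1)
    (hdeg : Divisor.degree D = Divisor.degree D') (h : cls hΩ P₀ D = cls hΩ P₀ D') : D = D' :=
  tr_eq_of_cls_eq hΩ P₀ D D' hD hD' hell hdeg h

/-- every class is `cls E` for an effective `E` of degree `g` (Riemann's inequality). -/
theorem exists_effective_cls (hΩ : IsRRField Ω (laurentBaseChange Ω F₀))
    (P₀ : Place Ω (laurentBaseChange Ω F₀)) (z : Pic0 Ω (laurentBaseChange Ω F₀)) :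
    ∃ E : Divisor Ω (laurentBaseChange Ω F₀), 0 ≤ E ∧
      Divisor.degree E = (genusFF Ω (laurentBaseChange Ω F₀) : ℤ) ∧ z = cls hΩ P₀ E :=
  tr_exists_effective_cls hΩ P₀ z

/-- the orbit of a class is finite if the orbit of the divisor is. -/
theorem tr_finite_orbit_cls (hΩ : IsRRField Ω (laurentBaseChange Ω F₀))
    (P₀ : Place Ω (laurentBaseChange Ω F₀)) (H : Subgroup (Ω ≃ₐ[ℚ] Ω))
    (hP₀ : ∀ σ ∈ H, arithmeticGalois F₀ σ • P₀ = P₀)
    (E : Divisor Ω (laurentBaseChange Ω F₀)) (hE : (orbitOf F₀ H E).Finite) :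
    (orbitOf F₀ H (cls hΩ P₀ E)).Finite := by
  refine (hE.image (cls hΩ P₀)).subset ?_
  rintro _ ⟨σ, hσ, rfl⟩
  exact ⟨_, ⟨σ, hσ, rfl⟩, (smul_cls hΩ P₀ σ (hP₀ σ hσ) E).symm⟩

/-- the orbit of an effective divisor with `ℓ = 1` is finite if the orbit of its class is. -/
theorem tr_finite_orbit_of_cls (hΩ : IsRRField Ω (laurentBaseChange Ω F₀))
    (P₀ : Place Ω (laurentBaseChange Ω F₀)) (H : Subgroup (Ω ≃ₐ[ℚ] Ω))
    (hP₀ : ∀ σ ∈ H, arithmeticGalois F₀ σ • P₀ = P₀)
    (D : Divisor Ω (laurentBaseChange Ω F₀)) (hD : 0 ≤ D) (hell : ell D = 1)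
    (hfin : (orbitOf F₀ H (cls hΩ P₀ D)).Finite) : (orbitOf F₀ H D).Finite := by
  apply Set.Finite.of_finite_image (f := cls hΩ P₀)
  · refine hfin.subset ?_
    rintro _ ⟨_, ⟨σ, hσ, rfl⟩, rfl⟩
    exact ⟨σ, hσ, smul_cls hΩ P₀ σ (hP₀ σ hσ) _⟩
  · rintro _ ⟨σ, hσ, rfl⟩ _ ⟨τ, hτ, rfl⟩ heq
    refine eq_of_cls_eq hΩ P₀ _ _ (tr_smul_nonneg _ hD) (tr_smul_nonneg _ hD) ?_ ?_ heq
    · rw [ell_smul]; exact hell
    · rw [SemilinearAut.degree_smul, SemilinearAut.degree_smul]

/-- **(D) = (L3)**: transfer of genericity. -/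
theorem isGenTuple_of_transfer (hΩ : IsRRField Ω (laurentBaseChange Ω F₀)) (x₀ : F₀)
    (hx : ∃ P : Place Ω (laurentBaseChange Ω F₀), P.ord (xOf Ω x₀) < 0)
    (P₀ : Place Ω (laurentBaseChange Ω F₀))
    (hP₀ : ∀ σ ∈ galOver (∅ : Set Ω), arithmeticGalois F₀ σ • P₀ = P₀)
    {g : ℕ} (P : Fin g → Place Ω (laurentBaseChange Ω F₀)) (hP : IsGenTuple x₀ P)
    (hell : ell (sumPl P) = 1)
    (E : Divisor Ω (laurentBaseChange Ω F₀)) (hE : 0 ≤ E) (hdeg : Divisor.degree E = (g : ℤ))
    (H : ∀ S : Finset Ω, (orbitOf F₀ (galOver (S : Set Ω)) (cls hΩ P₀ E)).Finite →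
      (orbitOf F₀ (galOver (S : Set Ω)) (cls hΩ P₀ (sumPl P))).Finite) :
    ∃ Q : Fin g → Place Ω (laurentBaseChange Ω F₀), E = sumPl Q ∧ IsGenTuple x₀ Q := by
  classical
  obtain ⟨Q, hQ⟩ := tr_exists_tuple hΩ g E hE hdeg
  have hEQ : E = sumPl Q := hQ
  obtain ⟨c, hc, hover⟩ := hP
  -- the values of the coordinate function at the points of `E`
  set c' : Fin g → Ω := fun i => if h : ∃ a, Over x₀ (Q i) a then h.choose else 0 with hc'
  have hc'spec : ∀ i, (∃ a, Over x₀ (Q i) a) → Over x₀ (Q i) (c' i) := by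
    intro i h
    simp only [hc', dif_pos h]
    exact h.choose_spec
  set S : Finset Ω := Finset.univ.image c' with hS
  have hScard : S.card ≤ g := by
    calc S.card ≤ (Finset.univ : Finset (Fin g)).card := Finset.card_image_le
      _ = g := by simp
  have hmemS' : ∀ i, c' i ∈ (S : Set Ω) := fun i =>
    Finset.mem_coe.mpr (Finset.mem_image_of_mem _ (Finset.mem_univ i))
  have hmemS : ∀ i, c' i ∈ closField (S : Set Ω) := fun i => subset_closField _ (hmemS' i)
  -- the orbit of `E` is finite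
  have horbE : (orbitOf F₀ (galOver (S : Set Ω)) E).Finite := by
    apply finite_orbit_divisor
    intro R hR
    rw [hEQ] at hR
    obtain ⟨i, rfl⟩ := nsp_support_sumPl Q hR
    rcases pole_or_over hΩ x₀ hx (Q i) with hp | ho
    · exact finite_orbit_of_pole hΩ x₀ _ hp
    · exact finite_orbit_of_over hΩ x₀ _ (hc'spec i ho) (hmemS i)
  have hfixP₀ : ∀ σ ∈ galOver (S : Set Ω), arithmeticGalois F₀ σ • P₀ = P₀ :=
    fun σ hσ => hP₀ σ (galOver_anti (Set.empty_subset _) hσ)
  have horbx := H S (tr_finite_orbit_cls hΩ P₀ _ hfixP₀ E horbE)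
  have horbD : (orbitOf F₀ (galOver (S : Set Ω)) (sumPl P)).Finite :=
    tr_finite_orbit_of_cls hΩ P₀ _ hfixP₀ _ (nsp_sumPl_nonneg P) hell horbx
  -- the values `c i` are algebraic over `ℚ(S)`
  have hcS : ∀ i, c i ∈ closField (S : Set Ω) := fun i =>
    mem_closField_of_finite_orbit_place x₀ _ (hover i)
      (finite_orbit_of_mem_support _ _ horbD (tr_mem_support_sumPl P i))
  obtain ⟨hcard, hind⟩ := algebraicIndependent_of_mem_closField c hc S hScard hcS
  have hinj : Function.Injective c' := by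
    have h1 : (Finset.univ.image c').card = (Finset.univ : Finset (Fin g)).card := by
      rw [← hS, hcard]; simp
    have h2 := Finset.injOn_of_card_image_eq h1
    intro i j hij
    exact h2 (Finset.mem_coe.mpr (Finset.mem_univ i)) (Finset.mem_coe.mpr (Finset.mem_univ j)) hij
  have hind' : AlgebraicIndependent ℚ c' :=
    hind.comp (fun i : Fin g => (⟨c' i, hmemS' i⟩ : (S : Set Ω)))
      (fun i j hij => hinj (congrArg Subtype.val hij))
  have hover' : ∀ i, Over x₀ (Q i) (c' i) := by
    intro i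
    rcases pole_or_over hΩ x₀ hx (Q i) with hp | ho
    · exfalso
      have hnot : ¬ ∃ a, Over x₀ (Q i) a := fun ⟨a, ha⟩ =>
        absurd hp (not_lt.mpr (not_pole_of_over x₀ ha))
      have h0 : c' i = 0 := by simp only [hc', dif_neg hnot]
      have htr := hind'.transcendental i
      rw [h0] at htr
      exact htr isAlgebraic_zero
    · exact hc'spec i ho
  exact ⟨Q, hEQ, c', hind', hover'⟩

end Fermat.Agent.Div
end
end MergeWrap_Lib_Div_Transfer

section MergeWrap_Lib_Div_Gen_E0 -- from Lib/Div/Gen/E0.lean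

set_option autoImplicit false
set_option linter.unusedVariables false

/-!
# DIV, work package E1, pieces (E0) and (E0') (helper22)

Proofs of the stubs `isGen_of_ev_not_mem` and `smul_eq_of_ev_mem` of `Lib/Div/Gen.lean` (same
statements, names `*_pf`), from the dichotomy `DescPlaces.dich` (a place of `F_K'` is an extension
place or is trivial on `θ F_K`) and `DescPlaces.smul_ext`.
-/

noncomputable section

namespace Fermat.Agent.Div

open ModularCurve HahnSeries AlgebraicCurve Fermat.Agent.RR Fermat.Agent.F3I2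
open Fermat.Agent.S17 Cardinal

variable {K K' : Type*} [Field K] [Field K'] [Algebra ℚ K] [Algebra ℚ K'] [Algebra K K']
variable {F₀ : IntermediateField ℚ (LaurentSeries ℚ)}

/-- a congruence at a place of `F_K` gives the congruence at its extension. -/
theorem e0_congAt_ext (P : DescPlaces K K' F₀) (v : Place K (laurentBaseChange K F₀))
    {f : laurentBaseChange K F₀} {c : K} (h : Pts.CongAt v f c) :
    Pts.CongAt (P.ext v) (descTheta K K' F₀ f) (algebraMap K K' c) := by
  rcases h with h | h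
  · left
    rw [h, descTheta_algebraMap]
  · right
    rw [← descTheta_algebraMap, ← map_sub, P.ord_ext]
    exact h

/-- **(E0)** a place of `F_K'` at which some `θ f` takes a value outside `K` is generic. -/
theorem isGen_of_ev_not_mem_pf [IsAlgClosed K] (hK : IsRRField K (laurentBaseChange K F₀))
    (hK' : IsRRField K' (laurentBaseChange K' F₀)) (w : Place K' (laurentBaseChange K' F₀))
    (f : laurentBaseChange K F₀) (hf : 0 ≤ w.ord (descTheta K K' F₀ f))
    (hc : Pts.ev w (descTheta K K' F₀ f) ∉ Set.range (algebraMap K K')) :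
    IsGen F₀ K K' w := by
  rcases (Fermat.Agent.ConstExt.descPlacesOfRR K K' F₀ hK).dich w with ⟨v, rfl⟩ | h
  · exfalso
    set P := Fermat.Agent.ConstExt.descPlacesOfRR K K' F₀ hK
    rw [P.ord_ext] at hf
    exact hc ⟨Pts.ev v f, (Pts.ev_eq_of_congAt (e0_congAt_ext P v (Pts.congAt_ev hK v hf))).symm⟩
  · exact h

/-- **(E0')** a place of `F_K'` at which a nonconstant `θ f` takes a value in `K` (or has a pole)
is an extension place, hence is fixed by `Aut(K'/K)`. -/
theorem smul_eq_of_ev_mem_pf [IsAlgClosed K] (hK : IsRRField K (laurentBaseChange K F₀))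
    (hK' : IsRRField K' (laurentBaseChange K' F₀)) (w : Place K' (laurentBaseChange K' F₀))
    (f : laurentBaseChange K F₀) (hf : f ∉ Set.range (algebraMap K (laurentBaseChange K F₀)))
    (hc : w.ord (descTheta K K' F₀ f) < 0 ∨
      Pts.ev w (descTheta K K' F₀ f) ∈ Set.range (algebraMap K K'))
    {σ : K' ≃ₐ[ℚ] K'} (hσ : σ ∈ descGal K K') : arithmeticGalois F₀ σ • w = w := by
  rcases (Fermat.Agent.ConstExt.descPlacesOfRR K K' F₀ hK).dich w with ⟨v, rfl⟩ | h
  · exact (Fermat.Agent.ConstExt.descPlacesOfRR K K' F₀ hK).smul_ext hσ v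
  · exfalso
    rcases hc with hlt | ⟨a, ha⟩
    · rw [h f] at hlt
      exact lt_irrefl _ hlt
    · have h0 : 0 ≤ w.ord (descTheta K K' F₀ f) := (h f).ge
      rcases (Pts.ev_eq_iff hK' w h0 (algebraMap K K' a)).mp ha.symm with h1 | h1
      · rw [← descTheta_algebraMap] at h1
        exact hf ⟨a, (descTheta_injective K K' F₀ h1).symm⟩
      · rw [← descTheta_algebraMap, ← map_sub, h (f - algebraMap K (laurentBaseChange K F₀) a)]
          at h1
        exact lt_irrefl _ h1

end Fermat.Agent.Div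
end
end MergeWrap_Lib_Div_Gen_E0

section MergeWrap_Lib_Div_Gen_Abstract -- from Lib/Div/Gen/Abstract.lean

set_option autoImplicit false

/-!
# DIV, work package E1 (helper44): the abstract algebra behind "a generic place is determined by
its value map"

`R` a commutative ring, `k` a field, `ε : R →+* k` a ring homomorphism with a section
`κ : k →+* R`, `u : R`.  `nearIdeal ε u = {r | ∃ A B, r * B = u * A ∧ ε B ≠ 0}` is the contraction
to `R` of the ideal generated by `u` in the localisation of `R` at `ker ε`.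

For a field `F` and `θ : F →+* R` the set `nearSet = {a | θ a - κ (ε (θ a)) ∈ nearIdeal ε u}` is a
subfield of `F` (`nearField`), and it contains every simple root of a polynomial with
coefficients in it (`mem_nearField_of_root`): this is the Taylor expansion / Hensel argument.
-/

noncomputable section

namespace Fermat.Agent.Div.GenAbs

open Polynomial

variable {R : Type*} [CommRing R] {k : Type*} [Field k]

/-- the contraction of `u R_𝔭`, `𝔭 = ker ε`. -/
def nearIdeal (ε : R →+* k) (u : R) : Ideal R where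
  carrier := {r | ∃ A B : R, r * B = u * A ∧ ε B ≠ 0}
  zero_mem' := ⟨0, 1, by rw [zero_mul, mul_zero], by rw [map_one]; exact one_ne_zero⟩
  add_mem' := by
    rintro r s ⟨A, B, h, hB⟩ ⟨A', B', h', hB'⟩
    refine ⟨A * B' + A' * B, B * B', ?_, ?_⟩
    · linear_combination B' * h + B * h'
    · rw [map_mul]
      exact mul_ne_zero hB hB'
  smul_mem' := by
    rintro c r ⟨A, B, h, hB⟩
    refine ⟨c * A, B, ?_, hB⟩
    rw [smul_eq_mul]
    linear_combination c * h

theorem mem_nearIdeal {ε : R →+* k} {u r : R} :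
    r ∈ nearIdeal ε u ↔ ∃ A B : R, r * B = u * A ∧ ε B ≠ 0 := Iff.rfl

theorem self_mem_nearIdeal (ε : R →+* k) (u : R) : u ∈ nearIdeal ε u :=
  ⟨1, 1, rfl, by rw [map_one]; exact one_ne_zero⟩

/-- `nearIdeal` is saturated with respect to the elements outside `ker ε`. -/
theorem mem_nearIdeal_of_mul {ε : R →+* k} {u r s : R} (h : r * s ∈ nearIdeal ε u)
    (hs : ε s ≠ 0) : r ∈ nearIdeal ε u := by
  obtain ⟨A, B, hAB, hB⟩ := h
  refine ⟨A, s * B, ?_, ?_⟩
  · rw [← hAB]; ring
  · rw [map_mul]
    exact mul_ne_zero hs hB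

/-- the subring of the `r : R` with `r ≡ κ (ε r)` modulo `nearIdeal`. -/
def nearRing (ε : R →+* k) (κ : k →+* R) (hκ : ∀ c, ε (κ c) = c) (u : R) : Subring R where
  carrier := {r | r - κ (ε r) ∈ nearIdeal ε u}
  zero_mem' := by
    show (0 : R) - κ (ε 0) ∈ nearIdeal ε u
    simp only [map_zero, sub_self]
    exact zero_mem _
  one_mem' := by
    show (1 : R) - κ (ε 1) ∈ nearIdeal ε u
    simp only [map_one, sub_self]
    exact zero_mem _
  add_mem' := by
    intro a b ha hb
    show (a + b) - κ (ε (a + b)) ∈ nearIdeal ε u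
    have : (a + b) - κ (ε (a + b)) = (a - κ (ε a)) + (b - κ (ε b)) := by
      simp only [map_add]; ring
    rw [this]
    exact add_mem ha hb
  neg_mem' := by
    intro a ha
    show (-a) - κ (ε (-a)) ∈ nearIdeal ε u
    have : (-a) - κ (ε (-a)) = -(a - κ (ε a)) := by
      simp only [map_neg]; ring
    rw [this]
    exact neg_mem ha
  mul_mem' := by
    intro a b ha hb
    show (a * b) - κ (ε (a * b)) ∈ nearIdeal ε u
    have : (a * b) - κ (ε (a * b)) = (a - κ (ε a)) * b + κ (ε a) * (b - κ (ε b)) := by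
      simp only [map_mul]; ring
    rw [this]
    exact add_mem (Ideal.mul_mem_right _ _ ha) (Ideal.mul_mem_left _ _ hb)

theorem mem_nearRing {ε : R →+* k} {κ : k →+* R} {hκ : ∀ c, ε (κ c) = c} {u r : R} :
    r ∈ nearRing ε κ hκ u ↔ r - κ (ε r) ∈ nearIdeal ε u := Iff.rfl

theorem kap_mem_nearRing {ε : R →+* k} {κ : k →+* R} {hκ : ∀ c, ε (κ c) = c} {u : R} (c : k) :
    κ c ∈ nearRing ε κ hκ u := by
  rw [mem_nearRing, hκ, sub_self]
  exact zero_mem _

variable {F : Type*} [Field F]

/-- the subfield of the `a : F` with `θ a ≡ κ (ε (θ a))` modulo `nearIdeal`. -/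
def nearField (ε : R →+* k) (κ : k →+* R) (hκ : ∀ c, ε (κ c) = c) (u : R) (θ : F →+* R) :
    Subfield F where
  carrier := {a | θ a - κ (ε (θ a)) ∈ nearIdeal ε u}
  zero_mem' := by
    show θ 0 - κ (ε (θ 0)) ∈ nearIdeal ε u
    simp only [map_zero, sub_self]
    exact zero_mem _
  one_mem' := by
    show θ 1 - κ (ε (θ 1)) ∈ nearIdeal ε u
    simp only [map_one, sub_self]
    exact zero_mem _
  add_mem' := by
    intro a b ha hb
    show θ (a + b) - κ (ε (θ (a + b))) ∈ nearIdeal ε u
    have : θ (a + b) - κ (ε (θ (a + b))) = (θ a - κ (ε (θ a))) + (θ b - κ (ε (θ b))) := by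
      simp only [map_add]; ring
    rw [this]
    exact add_mem ha hb
  neg_mem' := by
    intro a ha
    show θ (-a) - κ (ε (θ (-a))) ∈ nearIdeal ε u
    have : θ (-a) - κ (ε (θ (-a))) = -(θ a - κ (ε (θ a))) := by
      simp only [map_neg]; ring
    rw [this]
    exact neg_mem ha
  mul_mem' := by
    intro a b ha hb
    show θ (a * b) - κ (ε (θ (a * b))) ∈ nearIdeal ε u
    have : θ (a * b) - κ (ε (θ (a * b)))
        = (θ a - κ (ε (θ a))) * θ b + κ (ε (θ a)) * (θ b - κ (ε (θ b))) := by
      simp only [map_mul]; ring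
    rw [this]
    exact add_mem (Ideal.mul_mem_right _ _ ha) (Ideal.mul_mem_left _ _ hb)
  inv_mem' := by
    intro a ha
    show θ a⁻¹ - κ (ε (θ a⁻¹)) ∈ nearIdeal ε u
    rcases eq_or_ne a 0 with rfl | ha0
    · simp only [inv_zero, map_zero, sub_self]
      exact zero_mem _
    have hφ : ε (θ a) ≠ 0 := by
      intro h0
      have h1 : ε (θ (a * a⁻¹)) = 0 := by rw [map_mul, map_mul, h0, zero_mul]
      rw [mul_inv_cancel₀ ha0, map_one, map_one] at h1
      exact one_ne_zero h1
    have h1 : θ a * θ a⁻¹ = 1 := by rw [← map_mul, mul_inv_cancel₀ ha0, map_one]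
    have h2 : κ (ε (θ a)) * κ (ε (θ a⁻¹)) = 1 := by
      rw [← map_mul, ← map_mul, ← map_mul, mul_inv_cancel₀ ha0, map_one, map_one, map_one]
    refine mem_nearIdeal_of_mul (s := θ a * κ (ε (θ a))) ?_ ?_
    · have : (θ a⁻¹ - κ (ε (θ a⁻¹))) * (θ a * κ (ε (θ a))) = -(θ a - κ (ε (θ a))) := by
        linear_combination (κ (ε (θ a))) * h1 - (θ a) * h2
      rw [this]
      exact neg_mem ha
    · rw [map_mul, hκ]
      exact mul_ne_zero hφ hφ

theorem mem_nearField {ε : R →+* k} {κ : k →+* R} {hκ : ∀ c, ε (κ c) = c} {u : R}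
    {θ : F →+* R} {a : F} :
    a ∈ nearField ε κ hκ u θ ↔ θ a - κ (ε (θ a)) ∈ nearIdeal ε u := Iff.rfl

/-- the difference of the two evaluations of a polynomial with coefficients in `nearField`. -/
theorem eval_map_sub_mem {ε : R →+* k} {κ : k →+* R} {hκ : ∀ c, ε (κ c) = c} {u : R}
    {θ : F →+* R} (μ : F[X]) (hμ : ∀ i, μ.coeff i ∈ nearField ε κ hκ u θ) (y : R) :
    (μ.map θ).eval y - (μ.map ((κ.comp ε).comp θ)).eval y ∈ nearIdeal ε u := by
  rw [Polynomial.eval_map, Polynomial.eval_map, Polynomial.eval₂_eq_sum_range,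
    Polynomial.eval₂_eq_sum_range, ← Finset.sum_sub_distrib]
  refine Ideal.sum_mem _ fun i _ => ?_
  have : θ (μ.coeff i) * y ^ i - ((κ.comp ε).comp θ) (μ.coeff i) * y ^ i
      = (θ (μ.coeff i) - κ (ε (θ (μ.coeff i)))) * y ^ i := by
    simp only [RingHom.comp_apply]; ring
  rw [this]
  exact Ideal.mul_mem_right _ _ (hμ i)

/-- **Hensel / Taylor**: `nearField` contains the simple roots of the polynomials with
coefficients in `nearField`. -/
theorem mem_nearField_of_root {ε : R →+* k} {κ : k →+* R} {hκ : ∀ c, ε (κ c) = c} {u : R}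
    {θ : F →+* R} (μ : F[X]) (hμ : ∀ i, μ.coeff i ∈ nearField ε κ hκ u θ) {f : F}
    (hf : μ.eval f = 0) (hf' : μ.derivative.eval f ≠ 0) : f ∈ nearField ε κ hκ u θ := by
  rw [mem_nearField]
  set ψ : F →+* R := (κ.comp ε).comp θ with hψ
  set δ : R := θ f - κ (ε (θ f)) with hδ
  have hεδ : ε δ = 0 := by rw [hδ, map_sub, hκ, sub_self]
  -- `p (θ f) = 0`
  have h1 : (μ.map θ).eval (θ f) = 0 := by
    rw [Polynomial.eval_map, Polynomial.eval₂_at_apply, hf, map_zero]
  -- `p₀ (θ f) ∈ I`
  have h2 : (μ.map ψ).eval (θ f) ∈ nearIdeal ε u := by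
    have := eval_map_sub_mem (hκ := hκ) μ hμ (θ f)
    rw [h1, zero_sub] at this
    exact neg_mem_iff.mp this
  -- Taylor expansion of `p₀` at `κ d`
  obtain ⟨c, hc⟩ := Polynomial.binomExpansion (μ.map ψ) (κ (ε (θ f))) δ
  have h3 : κ (ε (θ f)) + δ = θ f := by rw [hδ]; ring
  have h4 : (μ.map ψ).eval (κ (ε (θ f))) = 0 := by
    have : κ (ε (θ f)) = ψ f := rfl
    rw [this, Polynomial.eval_map, Polynomial.eval₂_at_apply, hf, map_zero]
  have h5 : (μ.map ψ).derivative.eval (κ (ε (θ f))) = ψ (μ.derivative.eval f) := by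
    have : κ (ε (θ f)) = ψ f := rfl
    rw [this, Polynomial.derivative_map, Polynomial.eval_map, Polynomial.eval₂_at_apply]
  rw [h3, h4, h5, zero_add] at hc
  -- `p₀ (θ f) = δ * B₀`
  have h6 : (μ.map ψ).eval (θ f) = δ * (ψ (μ.derivative.eval f) + c * δ) := by
    rw [hc]; ring
  rw [h6] at h2
  refine mem_nearIdeal_of_mul h2 ?_
  rw [map_add, map_mul, hεδ, mul_zero, add_zero]
  have : ε (ψ (μ.derivative.eval f)) = ε (θ (μ.derivative.eval f)) := by
    rw [hψ, RingHom.comp_apply, RingHom.comp_apply, hκ]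
  rw [this]
  intro h0
  have hinj : Function.Injective (ε.comp θ) := by
    exact (ε.comp θ).injective
  exact hf' (hinj (by rw [RingHom.comp_apply, h0, map_zero]))

end Fermat.Agent.Div.GenAbs
end
end MergeWrap_Lib_Div_Gen_Abstract

section MergeWrap_Lib_Div_Gen_Core -- from Lib/Div/Gen/Core.lean

set_option autoImplicit false

/-!
# DIV, work package E1 (helper44): generic places of a constant field extension, core

Generic setting of `Lib/ConstExt`: `K → C` fields, `φ : FK →+* FC` a constant field extension,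
`R = C[φ FK]` (`thetaRing`).  A place `w` of `FC/C` which is trivial on `φ FK` ("generic")
contains `R`; its value map restricted to `R` is a ring homomorphism `evR : R →+* C`.
With `u = φ x - c`, `c` the value of `φ x`, every element of `R` is `u ^ m * (s / t)` with
`s, t ∈ R` of nonzero value (`exists_factor`), so the valuation of `w` on `R`, hence `w` itself,
is determined by the value map (`place_eq_of_ev_eq`).
-/

noncomputable section

namespace Fermat.Agent.Div.GenCore

open AlgebraicCurve Fermat.Agent.RR Fermat.Agent.S17 Fermat.Agent.Div.GenAbs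
open Fermat.Agent.ConstExt

universe uK uC uFK uFC

variable {K : Type uK} {C : Type uC} {FK : Type uFK} {FC : Type uFC}
  [Field K] [Field C] [Field FK] [Field FC] [Algebra K C] [Algebra K FK] [Algebra C FC]

/-- the place `w` is trivial on `φ FK`. -/
def Triv (φ : FK →+* FC) (w : Place C FC) : Prop := ∀ f : FK, w.ord (φ f) = 0

/-! ### the ring `R = C[φ FK]` -/

/-- the ring `C[φ FK]`. -/
def thetaRing (φ : FK →+* FC) : Subalgebra C FC := Algebra.adjoin C (Set.range φ)

variable {φ : FK →+* FC}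

theorem theta_mem_thetaRing (f : FK) : φ f ∈ thetaRing (C := C) φ :=
  Algebra.subset_adjoin ⟨f, rfl⟩

variable (C φ) in
/-- `φ` as a ring homomorphism into `R`. -/
def thetaR : FK →+* thetaRing (C := C) φ :=
  φ.codRestrict (thetaRing (C := C) φ) theta_mem_thetaRing

@[simp]
theorem coe_thetaR (f : FK) : ((thetaR C φ f : thetaRing (C := C) φ) : FC) = φ f := rfl

theorem ord_nonneg_of_mem_thetaRing {w : Place C FC} (hw : Triv φ w) {r : FC}
    (hr : r ∈ thetaRing (C := C) φ) : 0 ≤ w.ord r := by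
  induction hr using Algebra.adjoin_induction with
  | mem x hx =>
      obtain ⟨f, rfl⟩ := hx
      exact (hw f).ge
  | algebraMap c => rw [Fermat.Agent.S24Res.ord_algebraMap]
  | add x y _ _ hx hy =>
      exact Fermat.Agent.S24Res.ord_nonneg_of_mem w
        (add_mem (Fermat.Agent.S24Res.mem_of_ord_nonneg w hx)
          (Fermat.Agent.S24Res.mem_of_ord_nonneg w hy))
  | mul x y _ _ hx hy =>
      exact Fermat.Agent.S24Res.ord_nonneg_of_mem w
        (mul_mem (Fermat.Agent.S24Res.mem_of_ord_nonneg w hx)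
          (Fermat.Agent.S24Res.mem_of_ord_nonneg w hy))

/-- the value map of a generic place on `R`. -/
def evR (hC : IsRRField C FC) (w : Place C FC) (hw : Triv φ w) : thetaRing (C := C) φ →+* C where
  toFun r := Pts.ev w (r : FC)
  map_one' := Pts.ev_one w
  map_zero' := Pts.ev_zero w
  map_mul' r s := Pts.ev_mul hC w (ord_nonneg_of_mem_thetaRing hw r.2)
    (ord_nonneg_of_mem_thetaRing hw s.2)
  map_add' r s := Pts.ev_add hC w (ord_nonneg_of_mem_thetaRing hw r.2)
    (ord_nonneg_of_mem_thetaRing hw s.2)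

theorem evR_apply (hC : IsRRField C FC) (w : Place C FC) (hw : Triv φ w)
    (r : thetaRing (C := C) φ) : evR hC w hw r = Pts.ev w (r : FC) := rfl

theorem evR_algebraMap (hC : IsRRField C FC) (w : Place C FC) (hw : Triv φ w) (c : C) :
    evR hC w hw (algebraMap C (thetaRing (C := C) φ) c) = c :=
  Pts.ev_algebraMap w c

/-- an element of `R` of nonzero value is a unit at `w`. -/
theorem ord_eq_zero_of_evR_ne_zero (hC : IsRRField C FC) {w : Place C FC} (hw : Triv φ w)
    {r : thetaRing (C := C) φ} (hr : evR hC w hw r ≠ 0) : w.ord (r : FC) = 0 := by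
  have h0 : 0 ≤ w.ord (r : FC) := ord_nonneg_of_mem_thetaRing hw r.2
  have hr0 : (r : FC) ≠ 0 := by
    intro h
    apply hr
    rw [evR_apply, h, Pts.ev_zero]
  by_contra hne
  have hpos : 0 < w.ord (r : FC) := lt_of_le_of_ne h0 (Ne.symm hne)
  exact hr ((Pts.ev_eq_zero_iff hC w hr0 h0).mpr hpos)

/-- an element of `R` of value zero has positive order. -/
theorem ord_pos_of_evR_eq_zero (hC : IsRRField C FC) {w : Place C FC} (hw : Triv φ w)
    {r : thetaRing (C := C) φ} (hr0 : r ≠ 0) (hr : evR hC w hw r = 0) : 0 < w.ord (r : FC) := by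
  have h0 : 0 ≤ w.ord (r : FC) := ord_nonneg_of_mem_thetaRing hw r.2
  have hr0' : (r : FC) ≠ 0 := fun h => hr0 (Subtype.ext h)
  exact (Pts.ev_eq_zero_iff hC w hr0' h0).mp hr

/-- two generic places with the same value map on `φ FK` have the same value map on `R`. -/
theorem evR_eq_of_ev_eq (hC : IsRRField C FC) {P Q : Place C FC} (hP : Triv φ P)
    (hQ : Triv φ Q) (h : ∀ f : FK, Pts.ev P (φ f) = Pts.ev Q (φ f))
    (r : thetaRing (C := C) φ) : evR hC P hP r = evR hC Q hQ r := by
  obtain ⟨r, hr⟩ := r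
  show Pts.ev P r = Pts.ev Q r
  induction hr using Algebra.adjoin_induction with
  | mem x hx =>
      obtain ⟨f, rfl⟩ := hx
      exact h f
  | algebraMap c => rw [Pts.ev_algebraMap, Pts.ev_algebraMap]
  | add x y hx hy ihx ihy =>
      rw [Pts.ev_add hC P (ord_nonneg_of_mem_thetaRing hP hx) (ord_nonneg_of_mem_thetaRing hP hy),
        Pts.ev_add hC Q (ord_nonneg_of_mem_thetaRing hQ hx) (ord_nonneg_of_mem_thetaRing hQ hy),
        ihx, ihy]
  | mul x y hx hy ihx ihy =>
      rw [Pts.ev_mul hC P (ord_nonneg_of_mem_thetaRing hP hx) (ord_nonneg_of_mem_thetaRing hP hy),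
        Pts.ev_mul hC Q (ord_nonneg_of_mem_thetaRing hQ hx) (ord_nonneg_of_mem_thetaRing hQ hy),
        ihx, ihy]

/-! ### every function is congruent to its value modulo `u` -/

section Near

variable (hC : IsRRField C FC) (w : Place C FC) (hw : Triv φ w)

variable (C φ) in
/-- the constants as a ring homomorphism `C →+* R`. -/
def kapR : C →+* thetaRing (C := C) φ := algebraMap C (thetaRing (C := C) φ)

theorem evR_kapR (c : C) : evR hC w hw (kapR C φ c) = c := evR_algebraMap hC w hw c

/-- the local parameter `u = φ x - c`. -/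
def uPar (x : FK) : thetaRing (C := C) φ :=
  thetaR C φ x - kapR C φ (evR hC w hw (thetaR C φ x))

theorem evR_uPar (x : FK) : evR hC w hw (uPar hC w hw x) = 0 := by
  rw [uPar, map_sub, evR_kapR, sub_self]

theorem uPar_ne_zero {x : FK} (hx : ∀ c : C, φ x ≠ algebraMap C FC c) :
    uPar hC w hw x ≠ 0 := by
  intro h0
  have h1 : thetaR C φ x = kapR C φ (evR hC w hw (thetaR C φ x)) := sub_eq_zero.mp h0
  exact hx _ (congrArg (fun z : thetaRing (C := C) φ => (z : FC)) h1)

/-- the subfield of the functions congruent to their value modulo `u`. -/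
def nearF (x : FK) : Subfield FK :=
  nearField (evR hC w hw) (kapR C φ) (evR_kapR hC w hw) (uPar hC w hw x) (thetaR C φ)

theorem algebraMap_mem_nearF (hcomm : ∀ a : K, φ (algebraMap K FK a)
    = algebraMap C FC (algebraMap K C a)) (x : FK) (a : K) :
    algebraMap K FK a ∈ nearF hC w hw x := by
  show thetaR C φ _ - kapR C φ (evR hC w hw (thetaR C φ _)) ∈ nearIdeal _ _
  have h1 : (thetaR C φ (algebraMap K FK a) : thetaRing (C := C) φ)
      = kapR C φ (algebraMap K C a) := Subtype.ext (hcomm a)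
  rw [h1, evR_kapR, sub_self]
  exact zero_mem _

theorem self_mem_nearF (x : FK) : x ∈ nearF hC w hw x :=
  self_mem_nearIdeal _ _

open scoped IntermediateField in
theorem adjoin_le_nearF (hcomm : ∀ a : K, φ (algebraMap K FK a)
    = algebraMap C FC (algebraMap K C a)) (x : FK) (y : FK)
    (hy : y ∈ K⟮x⟯) : y ∈ nearF hC w hw x := by
  let T : IntermediateField K FK :=
    (nearF hC w hw x).toIntermediateField (algebraMap_mem_nearF hC w hw hcomm x)
  have hle : K⟮x⟯ ≤ T :=
    IntermediateField.adjoin_simple_le_iff.mpr (self_mem_nearF hC w hw x)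
  exact hle hy

open scoped IntermediateField in
/-- **every function is congruent to its value modulo `u`** (`FK` finite over `K(x)`,
characteristic `0`). -/
theorem mem_nearF [CharZero FK] (hcomm : ∀ a : K, φ (algebraMap K FK a)
    = algebraMap C FC (algebraMap K C a)) {x : FK}
    (hfin : FiniteDimensional K⟮x⟯ FK) (f : FK) : f ∈ nearF hC w hw x := by
  have : CharZero K⟮x⟯ := ⟨fun a b h => by
    have h1 := congrArg (fun z : K⟮x⟯ => (z : FK)) h
    simpa using h1⟩
  have hint : IsIntegral K⟮x⟯ f := Algebra.IsIntegral.isIntegral f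
  have hsep : (minpoly K⟮x⟯ f).Separable := (minpoly.irreducible hint).separable
  refine mem_nearField_of_root ((minpoly K⟮x⟯ f).map (algebraMap K⟮x⟯ FK)) ?_ ?_ ?_
  · intro i
    rw [Polynomial.coeff_map]
    exact adjoin_le_nearF hC w hw hcomm x _ ((minpoly K⟮x⟯ f).coeff i).2
  · rw [Polynomial.eval_map_algebraMap]
    exact minpoly.aeval _ _
  · rw [Polynomial.derivative_map, Polynomial.eval_map_algebraMap]
    exact hsep.aeval_derivative_ne_zero (minpoly.aeval _ _)

/-- every element of `R` is congruent to its value modulo `u`. -/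
theorem sub_kapR_mem_nearIdeal {x : FK} (hall : ∀ f : FK, f ∈ nearF hC w hw x)
    (r : thetaRing (C := C) φ) :
    r - kapR C φ (evR hC w hw r) ∈ nearIdeal (evR hC w hw) (uPar hC w hw x) := by
  suffices h : r ∈ nearRing (evR hC w hw) (kapR C φ) (evR_kapR hC w hw) (uPar hC w hw x) from h
  obtain ⟨r, hr⟩ := r
  induction hr using Algebra.adjoin_induction with
  | mem y hy =>
      obtain ⟨f, rfl⟩ := hy
      exact hall f
  | algebraMap c => exact kap_mem_nearRing c
  | add y z hy hz ihy ihz => exact add_mem ihy ihz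
  | mul y z hy hz ihy ihz => exact mul_mem ihy ihz

end Near

/-! ### factorisation in `R` and the valuation -/

theorem ord_pow_nat' (w : Place C FC) (f : FC) (n : ℕ) : w.ord (f ^ n) = n * w.ord f := by
  have := w.ord_zpow f (n : ℤ)
  rwa [zpow_natCast] at this

/-- every nonzero element of `R` is `u ^ m * (s / t)` with `s`, `t` of nonzero value. -/
theorem exists_factor (hC : IsRRField C FC) {w : Place C FC} (hw : Triv φ w) {x : FK}
    (hxc : ∀ c : C, φ x ≠ algebraMap C FC c) (hall : ∀ f : FK, f ∈ nearF hC w hw x) :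
    ∀ (n : ℕ) (r : thetaRing (C := C) φ), r ≠ 0 → w.ord (r : FC) ≤ n →
      ∃ (m : ℕ) (s t : thetaRing (C := C) φ), evR hC w hw s ≠ 0 ∧ evR hC w hw t ≠ 0 ∧
        r * t = uPar hC w hw x ^ m * s := by
  have hu0 : uPar hC w hw x ≠ 0 := uPar_ne_zero hC w hw hxc
  have hupos : 0 < w.ord ((uPar hC w hw x : thetaRing (C := C) φ) : FC) :=
    ord_pos_of_evR_eq_zero hC hw hu0 (evR_uPar hC w hw x)
  intro n
  induction n with
  | zero =>
      intro r hr0 hr
      have hε : evR hC w hw r ≠ 0 := by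
        intro h0
        have := ord_pos_of_evR_eq_zero hC hw hr0 h0
        simp only [Nat.cast_zero] at hr
        omega
      exact ⟨0, r, 1, hε, by rw [map_one]; exact one_ne_zero, by rw [pow_zero, mul_one, one_mul]⟩
  | succ n ih =>
      intro r hr0 hr
      by_cases hε : evR hC w hw r = 0
      · have h := sub_kapR_mem_nearIdeal hC w hw hall r
        rw [hε, map_zero, sub_zero] at h
        obtain ⟨A, B, hAB, hB⟩ := h
        have hB0 : B ≠ 0 := by
          rintro rfl
          exact hB (map_zero _)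
        have hA0 : A ≠ 0 := by
          rintro rfl
          rw [mul_zero] at hAB
          exact (mul_ne_zero hr0 hB0) hAB
        have hr0' : (r : FC) ≠ 0 := fun h => hr0 (Subtype.ext h)
        have hB0' : (B : FC) ≠ 0 := fun h => hB0 (Subtype.ext h)
        have hA0' : (A : FC) ≠ 0 := fun h => hA0 (Subtype.ext h)
        have hu0' : ((uPar hC w hw x : thetaRing (C := C) φ) : FC) ≠ 0 :=
          fun h => hu0 (Subtype.ext h)
        have hAB' : (r : FC) * (B : FC)
            = ((uPar hC w hw x : thetaRing (C := C) φ) : FC) * (A : FC) :=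
          congrArg (fun z : thetaRing (C := C) φ => (z : FC)) hAB
        have hord := congrArg w.ord hAB'
        rw [w.ord_mul hr0' hB0', w.ord_mul hu0' hA0', ord_eq_zero_of_evR_ne_zero hC hw hB,
          add_zero] at hord
        have hAn : w.ord (A : FC) ≤ n := by
          push_cast at hr
          omega
        obtain ⟨m, s, t, hs, ht, hst⟩ := ih A hA0 hAn
        refine ⟨m + 1, s, B * t, hs, ?_, ?_⟩
        · rw [map_mul]
          exact mul_ne_zero hB ht
        · rw [← mul_assoc, hAB, mul_assoc, hst, pow_succ]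
          ring
      · exact ⟨0, r, 1, hε, by rw [map_one]; exact one_ne_zero,
          by rw [pow_zero, mul_one, one_mul]⟩

/-- the order of an element of `R` from a factorisation. -/
theorem ord_eq_of_factor (hC : IsRRField C FC) {w : Place C FC} (hw : Triv φ w)
    {u r s t : thetaRing (C := C) φ} {m : ℕ} (hu : u ≠ 0) (hs : evR hC w hw s ≠ 0)
    (ht : evR hC w hw t ≠ 0) (h : r * t = u ^ m * s) :
    w.ord (r : FC) = m * w.ord (u : FC) := by
  have hs0 : (s : FC) ≠ 0 := by
    intro h0
    apply hs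
    rw [evR_apply, h0, Pts.ev_zero]
  have ht0 : (t : FC) ≠ 0 := by
    intro h0
    apply ht
    rw [evR_apply, h0, Pts.ev_zero]
  have hu0 : (u : FC) ≠ 0 := fun h0 => hu (Subtype.ext h0)
  have h' : (r : FC) * (t : FC) = (u : FC) ^ m * (s : FC) :=
    congrArg (fun z : thetaRing (C := C) φ => (z : FC)) h
  have hr0 : (r : FC) ≠ 0 := by
    intro h0
    rw [h0, zero_mul] at h'
    exact (mul_ne_zero (pow_ne_zero m hu0) hs0) h'.symm
  have hord := congrArg w.ord h'
  rw [w.ord_mul hr0 ht0, w.ord_mul (pow_ne_zero m hu0) hs0, ord_pow_nat',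
    ord_eq_zero_of_evR_ne_zero hC hw hs, ord_eq_zero_of_evR_ne_zero hC hw ht, add_zero,
    add_zero] at hord
  exact hord

theorem Phi_mem_thetaRing (g : Idx K C →₀ FK) : Phi K C φ g ∈ thetaRing (C := C) φ := by
  rw [Phi_apply, Finsupp.sum]
  exact sum_mem fun j _ =>
    mul_mem ((thetaRing (C := C) φ).algebraMap_mem _) (theta_mem_thetaRing _)

open scoped IntermediateField in
/-- one inclusion of the valuation rings. -/
theorem ord_nonneg_of_ev_eq [CharZero FK] (hφ : IsConstExt (K := K) (C := C) φ)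
    (hC : IsRRField C FC) {P Q : Place C FC} (hP : Triv φ P) (hQ : Triv φ Q)
    (h : ∀ f : FK, Pts.ev P (φ f) = Pts.ev Q (φ f)) {x : FK}
    (hxc : ∀ c : C, φ x ≠ algebraMap C FC c) (hfin : FiniteDimensional K⟮x⟯ FK)
    {z : FC} (hz : 0 ≤ P.ord z) : 0 ≤ Q.ord z := by
  rcases eq_or_ne z 0 with rfl | hz0
  · rw [Place.ord_zero]
  obtain ⟨g, g', hg', hgg'⟩ := exists_frac hφ z
  set a : thetaRing (C := C) φ := ⟨Phi K C φ g, Phi_mem_thetaRing g⟩ with ha
  set b : thetaRing (C := C) φ := ⟨Phi K C φ g', Phi_mem_thetaRing g'⟩ with hb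
  have hb0 : b ≠ 0 := fun h0 => hg' (congrArg (fun z : thetaRing (C := C) φ => (z : FC)) h0)
  have ha0' : (a : FC) ≠ 0 := by
    show Phi K C φ g ≠ 0
    rw [← hgg']
    exact mul_ne_zero hz0 hg'
  have ha0 : a ≠ 0 := fun h0 => ha0' (by rw [h0]; rfl)
  have hallP := mem_nearF hC P hP hφ.comm hfin
  have huPQ : uPar hC P hP x = uPar hC Q hQ x := by
    unfold uPar
    rw [evR_eq_of_ev_eq hC hP hQ h]
  have hu0 : uPar hC P hP x ≠ 0 := uPar_ne_zero hC P hP hxc
  obtain ⟨ma, sa, ta, hsa, hta, hfa⟩ :=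
    exists_factor hC hP hxc hallP (P.ord (a : FC)).toNat a ha0 (Int.self_le_toNat _)
  obtain ⟨mb, sb, tb, hsb, htb, hfb⟩ :=
    exists_factor hC hP hxc hallP (P.ord (b : FC)).toNat b hb0 (Int.self_le_toNat _)
  have hPa := ord_eq_of_factor hC hP hu0 hsa hta hfa
  have hPb := ord_eq_of_factor hC hP hu0 hsb htb hfb
  have hQa : Q.ord (a : FC) = ma * Q.ord ((uPar hC P hP x : thetaRing (C := C) φ) : FC) :=
    ord_eq_of_factor hC hQ hu0 (by rwa [← evR_eq_of_ev_eq hC hP hQ h])
      (by rwa [← evR_eq_of_ev_eq hC hP hQ h]) hfa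
  have hQb : Q.ord (b : FC) = mb * Q.ord ((uPar hC P hP x : thetaRing (C := C) φ) : FC) :=
    ord_eq_of_factor hC hQ hu0 (by rwa [← evR_eq_of_ev_eq hC hP hQ h])
      (by rwa [← evR_eq_of_ev_eq hC hP hQ h]) hfb
  have hePpos : 0 < P.ord ((uPar hC P hP x : thetaRing (C := C) φ) : FC) :=
    ord_pos_of_evR_eq_zero hC hP hu0 (evR_uPar hC P hP x)
  have heQpos : 0 < Q.ord ((uPar hC P hP x : thetaRing (C := C) φ) : FC) := by
    rw [huPQ]
    exact ord_pos_of_evR_eq_zero hC hQ (huPQ ▸ hu0) (evR_uPar hC Q hQ x)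
  have hb0' : (b : FC) ≠ 0 := hg'
  have hzab : z * (b : FC) = (a : FC) := hgg'
  have hPz : P.ord z + P.ord (b : FC) = P.ord (a : FC) := by
    rw [← P.ord_mul hz0 hb0', hzab]
  have hQz : Q.ord z + Q.ord (b : FC) = Q.ord (a : FC) := by
    rw [← Q.ord_mul hz0 hb0', hzab]
  rw [hPa, hPb] at hPz
  rw [hQa, hQb] at hQz
  have hm : (mb : ℤ) ≤ ma := by
    by_contra hcon
    rw [not_le] at hcon
    have : (ma : ℤ) * P.ord ((uPar hC P hP x : thetaRing (C := C) φ) : FC)
        < mb * P.ord ((uPar hC P hP x : thetaRing (C := C) φ) : FC) :=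
      mul_lt_mul_of_pos_right hcon hePpos
    omega
  have : (mb : ℤ) * Q.ord ((uPar hC P hP x : thetaRing (C := C) φ) : FC)
      ≤ ma * Q.ord ((uPar hC P hP x : thetaRing (C := C) φ) : FC) :=
    mul_le_mul_of_nonneg_right hm heQpos.le
  omega

open scoped IntermediateField in
/-- **(E1), generic form**: a place which is trivial on `φ FK` is determined by its value map. -/
theorem place_eq_of_ev_eq [CharZero FK] (hφ : IsConstExt (K := K) (C := C) φ)
    (hC : IsRRField C FC) {P Q : Place C FC} (hP : Triv φ P) (hQ : Triv φ Q)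
    (h : ∀ f : FK, Pts.ev P (φ f) = Pts.ev Q (φ f)) {x : FK}
    (hxc : ∀ c : C, φ x ≠ algebraMap C FC c) (hfin : FiniteDimensional K⟮x⟯ FK) : P = Q := by
  apply Place.ext
  ext z
  rw [Fermat.Agent.S24Res.mem_iff_ord_nonneg, Fermat.Agent.S24Res.mem_iff_ord_nonneg]
  exact ⟨ord_nonneg_of_ev_eq hφ hC hP hQ h hxc hfin,
    ord_nonneg_of_ev_eq hφ hC hQ hP (fun f => (h f).symm) hxc hfin⟩

end Fermat.Agent.Div.GenCore
end
end MergeWrap_Lib_Div_Gen_Core

section MergeWrap_Lib_Div_Gen_Spec -- from Lib/Div/Gen/Spec.lean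

set_option autoImplicit false

/-!
# DIV, work package E1 (helper44): the core for `θ = descTheta K K' F₀`

* `GenSpec.isGen_smul_pf`, `GenSpec.ev_smul_theta` : Galois translates of generic places;
* `GenSpec.place_eq_of_ev_theta_eq` : **(E1)** a generic place is determined by its value map
  (instance of `GenCore.place_eq_of_ev_eq`).
-/

noncomputable section

namespace Fermat.Agent.Div.GenSpec

open ModularCurve HahnSeries AlgebraicCurve Fermat.Agent.RR Fermat.Agent.F3I2
open Fermat.Agent.S17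

variable {K K' : Type*} [Field K] [Field K'] [Algebra ℚ K] [Algebra ℚ K'] [Algebra K K']
variable {F₀ : IntermediateField ℚ (LaurentSeries ℚ)}

theorem isGen_smul_pf {σ : K' ≃ₐ[ℚ] K'} (hσ : σ ∈ descGal K K')
    {w : Place K' (laurentBaseChange K' F₀)} (hw : IsGen F₀ K K' w) :
    IsGen F₀ K K' (arithmeticGalois F₀ σ • w) := by
  intro f
  have h1 := SemilinearAut.ord_smul (arithmeticGalois F₀ σ) w (descTheta K K' F₀ f)
  rw [descGal_smul_theta F₀ hσ] at h1
  rw [h1]
  exact hw f

theorem ev_smul_theta (hK' : IsRRField K' (laurentBaseChange K' F₀)) {σ : K' ≃ₐ[ℚ] K'}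
    (hσ : σ ∈ descGal K K') (w : Place K' (laurentBaseChange K' F₀))
    (f : laurentBaseChange K F₀) :
    Pts.ev (arithmeticGalois F₀ σ • w) (descTheta K K' F₀ f)
      = σ (Pts.ev w (descTheta K K' F₀ f)) := by
  have h1 := Pts.ev_smul hK' (arithmeticGalois F₀ σ) w (descTheta K K' F₀ f)
  rw [descGal_smul_theta F₀ hσ] at h1
  rw [h1]
  rfl

/-- a function whose image under `θ` is constant is constant. -/
theorem mem_range_of_theta_eq_algebraMap {f : laurentBaseChange K F₀} {c : K'}
    (h : descTheta K K' F₀ f = algebraMap K' (laurentBaseChange K' F₀) c) :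
    f ∈ Set.range (algebraMap K (laurentBaseChange K F₀)) := by
  have h1 : coeffMap (algebraMap K K') (f : LaurentSeries K)
      = algebraMap K' (LaurentSeries K') c :=
    congrArg (fun z : laurentBaseChange K' F₀ => (z : LaurentSeries K')) h
  refine ⟨(f : LaurentSeries K).coeff 0, Subtype.ext ?_⟩
  show algebraMap K (LaurentSeries K) _ = (f : LaurentSeries K)
  rw [algebraMap_laurentSeries_eq_single]
  ext n
  have h2 := congrArg (fun z => z.coeff n) h1
  simp only [coeffMap_coeff, algebraMap_laurentSeries_eq_single] at h2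
  by_cases hn : n = 0
  · subst hn
    simp
  · rw [HahnSeries.coeff_single_of_ne hn] at h2 ⊢
    exact ((algebraMap K K').injective (by rw [h2, map_zero])).symm

/-- **(E1)** a generic place is determined by its value map. -/
theorem place_eq_of_ev_theta_eq (hK : IsRRField K (laurentBaseChange K F₀))
    (hK' : IsRRField K' (laurentBaseChange K' F₀))
    (P Q : Place K' (laurentBaseChange K' F₀)) (hP : IsGen F₀ K K' P) (hQ : IsGen F₀ K K' Q)
    (h : ∀ f : laurentBaseChange K F₀,
      Pts.ev P (descTheta K K' F₀ f) = Pts.ev Q (descTheta K K' F₀ f)) : P = Q := by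
  have hK0 : CharZero K := algebraRat.charZero K
  have hF0 : CharZero (laurentBaseChange K F₀) :=
    charZero_of_injective_algebraMap (algebraMap K (laurentBaseChange K F₀)).injective
  obtain ⟨x, hx, hfin, -⟩ := hK.exists_x
  have hxc : ∀ c : K', descTheta K K' F₀ x ≠ algebraMap K' (laurentBaseChange K' F₀) c := by
    intro c hc
    obtain ⟨a, ha⟩ := mem_range_of_theta_eq_algebraMap hc
    exact hx (ha ▸ isAlgebraic_algebraMap a)
  exact GenCore.place_eq_of_ev_eq (Fermat.Agent.ConstExt.isConstExt_descTheta K K' F₀) hK'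
    hP hQ h hxc hfin

end Fermat.Agent.Div.GenSpec
end
end MergeWrap_Lib_Div_Gen_Spec

section MergeWrap_Lib_Div_Gen -- from Lib/Div/Gen.lean

set_option autoImplicit false

/-!
# DIV, work package E1/E2: generic places of a constant field extension are conjugate

`K ⊂ K'` algebraically closed of characteristic `0`, `θ = descTheta K K' F₀ : F_K → F_K'`.
A place `w` of `F_K'` is generic over `K` (`IsGen K K' F₀ w`) if it is trivial on `θ F_K`; then
`f ↦ ev w (θ f)` is a ring embedding `F_K → K'` over `K`.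

* (E1) `eq_of_ev_eq`: a generic place is determined by its value map.
  Proof (blueprint): `R = K'[θ F_K]`; every element of `F_K'` is a quotient of elements of `R`
  (`Fermat.Agent.ConstExt.exists_frac`); `u = θ x - c`, `c = ev w (θ x)`, `x ∈ F_K` nonconstant;
  for `f ∈ F_K` take `Ψ(X,Y) ≠ 0` over `K` of minimal `Y`-degree with `Ψ(x,f) = 0`; then
  `0 = u·A + (θ f - ev f)·B` with `A, B ∈ R` and `ev B = Ψ_Y(c, ev f) = ev(θ Ψ_Y(x,f)) ≠ 0`.
  So every `r ∈ R` is `u^m · (unit)` with `m` depending only on the value map, and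
  `ord_w(a/b) ≥ 0 ↔ m(a) ≥ m(b)`.
* (E2) two generic places are conjugate under `Aut(K'/K)`: see `GenConj.lean`
  ((A1) applied to the two value maps `F_K → K'`, then (E1)).
-/

noncomputable section

namespace Fermat.Agent.Div

open ModularCurve HahnSeries AlgebraicCurve Fermat.Agent.RR Fermat.Agent.F3I2
open Fermat.Agent.S17 Cardinal

section Pair

variable {K K' : Type*} [Field K] [Field K'] [Algebra ℚ K] [Algebra ℚ K'] [Algebra K K']
variable {F₀ : IntermediateField ℚ (LaurentSeries ℚ)}

/-- the value map of a generic place, as a ring homomorphism `F_K → K'`. -/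
def genEval (hK' : IsRRField K' (laurentBaseChange K' F₀))
    (w : Place K' (laurentBaseChange K' F₀)) (hw : IsGen F₀ K K' w) :
    laurentBaseChange K F₀ →+* K' where
  toFun f := Pts.ev w (descTheta K K' F₀ f)
  map_one' := by rw [map_one, Pts.ev_one]
  map_zero' := by rw [map_zero, Pts.ev_zero]
  map_mul' f g := by
    rw [map_mul]
    exact Pts.ev_mul hK' w (hw f).ge (hw g).ge
  map_add' f g := by
    rw [map_add]
    exact Pts.ev_add hK' w (hw f).ge (hw g).ge

theorem genEval_apply (hK' : IsRRField K' (laurentBaseChange K' F₀))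
    (w : Place K' (laurentBaseChange K' F₀)) (hw : IsGen F₀ K K' w)
    (f : laurentBaseChange K F₀) :
    genEval hK' w hw f = Pts.ev w (descTheta K K' F₀ f) := rfl

theorem genEval_algebraMap (hK' : IsRRField K' (laurentBaseChange K' F₀))
    (w : Place K' (laurentBaseChange K' F₀)) (hw : IsGen F₀ K K' w) (a : K) :
    genEval hK' w hw (algebraMap K (laurentBaseChange K F₀) a) = algebraMap K K' a := by
  rw [genEval_apply, descTheta_algebraMap, Pts.ev_algebraMap]

/-- a Galois translate of a generic place is generic. -/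
theorem isGen_smul {σ : K' ≃ₐ[ℚ] K'} (hσ : σ ∈ descGal K K')
    {w : Place K' (laurentBaseChange K' F₀)} (hw : IsGen F₀ K K' w) :
    IsGen F₀ K K' (arithmeticGalois F₀ σ • w) :=
  GenSpec.isGen_smul_pf hσ hw

/-- the value map of a Galois translate. -/
theorem genEval_smul (hK' : IsRRField K' (laurentBaseChange K' F₀)) {σ : K' ≃ₐ[ℚ] K'}
    (hσ : σ ∈ descGal K K') (w : Place K' (laurentBaseChange K' F₀)) (hw : IsGen F₀ K K' w)
    (f : laurentBaseChange K F₀) :
    genEval hK' (arithmeticGalois F₀ σ • w) (isGen_smul hσ hw) f = σ (genEval hK' w hw f) := by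
  rw [genEval_apply, genEval_apply]
  exact GenSpec.ev_smul_theta hK' hσ w f

/-- **(E0)** a place of `F_K'` at which some `θ f` takes a value outside `K` is generic. -/
theorem isGen_of_ev_not_mem [IsAlgClosed K] (hK : IsRRField K (laurentBaseChange K F₀))
    (hK' : IsRRField K' (laurentBaseChange K' F₀)) (w : Place K' (laurentBaseChange K' F₀))
    (f : laurentBaseChange K F₀) (hf : 0 ≤ w.ord (descTheta K K' F₀ f))
    (hc : Pts.ev w (descTheta K K' F₀ f) ∉ Set.range (algebraMap K K')) :
    IsGen F₀ K K' w :=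
  isGen_of_ev_not_mem_pf hK hK' w f hf hc

/-- **(E0')** a place of `F_K'` at which a nonconstant `θ f` takes a value in `K` (or has a pole)
is an extension place, hence is fixed by `Aut(K'/K)`. -/
theorem smul_eq_of_ev_mem [IsAlgClosed K] (hK : IsRRField K (laurentBaseChange K F₀))
    (hK' : IsRRField K' (laurentBaseChange K' F₀)) (w : Place K' (laurentBaseChange K' F₀))
    (f : laurentBaseChange K F₀) (hf : f ∉ Set.range (algebraMap K (laurentBaseChange K F₀)))
    (hc : w.ord (descTheta K K' F₀ f) < 0 ∨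
      Pts.ev w (descTheta K K' F₀ f) ∈ Set.range (algebraMap K K'))
    {σ : K' ≃ₐ[ℚ] K'} (hσ : σ ∈ descGal K K') : arithmeticGalois F₀ σ • w = w :=
  smul_eq_of_ev_mem_pf hK hK' w f hf hc hσ

/-- **(E1)** a generic place is determined by its value map. -/
theorem eq_of_genEval_eq [IsAlgClosed K] [IsAlgClosed K'] [CharZero K']
    (hK : IsRRField K (laurentBaseChange K F₀)) (hK' : IsRRField K' (laurentBaseChange K' F₀))
    (P Q : Place K' (laurentBaseChange K' F₀)) (hP : IsGen F₀ K K' P) (hQ : IsGen F₀ K K' Q)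
    (h : ∀ f, genEval hK' P hP f = genEval hK' Q hQ f) : P = Q :=
  GenSpec.place_eq_of_ev_theta_eq hK hK' P Q hP hQ h

end Pair

end Fermat.Agent.Div
end
end MergeWrap_Lib_Div_Gen

section MergeWrap_Lib_Div_GenConj -- from Lib/Div/GenConj.lean

set_option autoImplicit false
set_option linter.style.haveILetI false

/-!
# DIV, work package E2 (helper22): generic places are conjugate

Proof of `exists_descGal_smul_eq` (stub in `Gen.lean`) from (A1) `exists_ringEquiv_of_embeddings`
and (E1) `eq_of_genEval_eq`, `isGen_smul`, `genEval_smul`; plus the countability of a function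
field over a countable constant field.
-/

noncomputable section

namespace Fermat.Agent.Div

open ModularCurve HahnSeries AlgebraicCurve Fermat.Agent.RR Fermat.Agent.F3I2
open Fermat.Agent.S17 Cardinal IntermediateField

/-- a function field in the sense of `IsRRField` over a countable field is countable. -/
theorem countable_of_isRRField {K F : Type} [Field K] [Field F] [Algebra K F] [Countable K]
    (h : IsRRField K F) : Countable F := by
  obtain ⟨x, -, hfin, -⟩ := h.exists_x
  haveI := hfin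
  have h2 : #(K⟮x⟯) ≤ ℵ₀ := by
    refine (cardinalMk_adjoin_le K ({x} : Set F)).trans ?_
    have hK : #K ≤ ℵ₀ := Cardinal.mk_le_aleph0
    have hx : #({x} : Set F) ≤ ℵ₀ := Cardinal.mk_le_aleph0
    exact sup_le (sup_le hK hx) le_rfl
  have h3 : #F ≤ max #(K⟮x⟯) ℵ₀ := Algebra.IsAlgebraic.cardinalMk_le_max K⟮x⟯ F
  rw [← Cardinal.mk_le_aleph0_iff]
  exact h3.trans (max_le h2 le_rfl)

/-- **(E2)** two generic places are conjugate under `Aut(K'/K)`. -/
theorem exists_descGal_smul_eq_pf {K K' : Type} [Field K] [Field K'] [Algebra ℚ K] [Algebra ℚ K']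
    [Algebra K K'] {F₀ : IntermediateField ℚ (LaurentSeries ℚ)}
    [IsAlgClosed K] [IsAlgClosed K'] [CharZero K'] [Countable K] (hcard : ℵ₀ < #K')
    (hK : IsRRField K (laurentBaseChange K F₀)) (hK' : IsRRField K' (laurentBaseChange K' F₀))
    (P Q : Place K' (laurentBaseChange K' F₀)) (hP : IsGen F₀ K K' P) (hQ : IsGen F₀ K K' Q) :
    ∃ σ ∈ descGal K K', arithmeticGalois F₀ σ • P = Q := by
  haveI : Countable (laurentBaseChange K F₀) := countable_of_isRRField hK
  obtain ⟨σ, hσ⟩ := exists_ringEquiv_of_embeddings hcard (genEval hK' P hP) (genEval hK' Q hQ)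
  have hmem : descRatAlgEquiv K' σ ∈ descGal K K' := by
    intro a
    have h1 := hσ (algebraMap K (laurentBaseChange K F₀) a)
    rw [genEval_algebraMap, genEval_algebraMap] at h1
    rw [descRatAlgEquiv_apply]
    exact h1
  refine ⟨descRatAlgEquiv K' σ, hmem, ?_⟩
  refine eq_of_genEval_eq hK hK' _ _ (isGen_smul hmem hP) hQ fun f => ?_
  rw [genEval_smul hK' hmem P hP f, descRatAlgEquiv_apply, hσ]

end Fermat.Agent.Div
end
end MergeWrap_Lib_Div_GenConj

section MergeWrap_Lib_Div_Conj -- from Lib/Div/Conj.lean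

set_option autoImplicit false
set_option linter.style.haveILetI false

/-!
# DIV, work package E3: generic tuples are conjugate, `(L4)` of the blueprint

Induction on `i`: `σ_{i-1} Q_j = P_j` for `j < i`; `S = {c_j : j < i}`, `M = closField S`;
`σ_{i-1} Q_i` and `P_i` lie over values outside `M` (A7), so they are generic over `M` (E0) and
conjugate under `Aut(Ω/M)` (E2, `M` countable by (A2)); the `P_j`, `j < i`, lie over values in `M`,
so they are fixed by `Aut(Ω/M)` (E0').
-/

noncomputable section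

namespace Fermat.Agent.Div

open ModularCurve HahnSeries AlgebraicCurve Fermat.Agent.RR Fermat.Agent.F3I2 Cardinal

section ConjAux

variable {Ω : Type} [Field Ω] [Algebra ℚ Ω] [CharZero Ω]
variable {F₀ : IntermediateField ℚ (LaurentSeries ℚ)}

/-- `θ` sends the coordinate function of `F_M` to the coordinate function of `F_Ω`. -/
theorem conj_descTheta_xOf (M : Subfield Ω) (x₀ : F₀) :
    descTheta ↥M Ω F₀ (xOf ↥M x₀) = xOf Ω x₀ :=
  descTheta_coeffEmb ↥M Ω F₀ x₀.2

omit [CharZero Ω] in
/-- the value of the coordinate function at a place over `a`. -/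
theorem conj_ev_xOf {x₀ : F₀} {w : Place Ω (laurentBaseChange Ω F₀)} {a : Ω}
    (h : Over x₀ w a) : Fermat.Agent.S17.Pts.ev w (xOf Ω x₀) = a :=
  Fermat.Agent.S17.Pts.ev_eq_of_congAt h.congAt

/-- the coordinate function of `F_M` is not a constant. -/
theorem conj_xOf_not_const (M : Subfield Ω) (x₀ : F₀)
    (hx : ∃ P : Place Ω (laurentBaseChange Ω F₀), P.ord (xOf Ω x₀) < 0) :
    xOf ↥M x₀ ∉ Set.range (algebraMap ↥M (laurentBaseChange ↥M F₀)) := by
  rintro ⟨a, ha⟩
  obtain ⟨P₀, hP₀⟩ := hx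
  have h1 : xOf Ω x₀ = algebraMap Ω (laurentBaseChange Ω F₀) (algebraMap ↥M Ω a) := by
    rw [← conj_descTheta_xOf M x₀, ← ha, descTheta_algebraMap]
  exact fibre_ne_const hP₀ (algebraMap ↥M Ω a) (sub_eq_zero.mpr h1)

/-- a place over a value outside `M` is generic over `M`. -/
theorem conj_isGen_of_over [IsAlgClosed Ω] (M : Subfield Ω) [IsAlgClosed ↥M]
    (hM : IsRRField ↥M (laurentBaseChange ↥M F₀))
    (hΩ : IsRRField Ω (laurentBaseChange Ω F₀)) {x₀ : F₀}
    {w : Place Ω (laurentBaseChange Ω F₀)} {a : Ω} (h : Over x₀ w a) (ha : a ∉ M) :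
    IsGen F₀ ↥M Ω w := by
  refine isGen_of_ev_not_mem hM hΩ w (xOf ↥M x₀) ?_ ?_
  · rw [conj_descTheta_xOf]
    exact not_pole_of_over x₀ h
  · rw [conj_descTheta_xOf, conj_ev_xOf h]
    rintro ⟨b, rfl⟩
    exact ha b.2

/-- a place over a value in `M` is fixed by `Aut(Ω/M)`. -/
theorem conj_smul_eq_of_over [IsAlgClosed Ω] (M : Subfield Ω) [IsAlgClosed ↥M]
    (hM : IsRRField ↥M (laurentBaseChange ↥M F₀))
    (hΩ : IsRRField Ω (laurentBaseChange Ω F₀)) {x₀ : F₀}
    (hx : ∃ P : Place Ω (laurentBaseChange Ω F₀), P.ord (xOf Ω x₀) < 0)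
    {w : Place Ω (laurentBaseChange Ω F₀)} {a : Ω} (h : Over x₀ w a) (ha : a ∈ M)
    {τ : Ω ≃ₐ[ℚ] Ω} (hτ : τ ∈ descGal ↥M Ω) : arithmeticGalois F₀ τ • w = w := by
  refine smul_eq_of_ev_mem hM hΩ w (xOf ↥M x₀) (conj_xOf_not_const M x₀ hx) (Or.inr ?_) hτ
  rw [conj_descTheta_xOf, conj_ev_xOf h]
  exact ⟨⟨a, ha⟩, rfl⟩

end ConjAux

/-- the induction behind `exists_conj`. -/
theorem exists_conj_aux {Ω : Type} [Field Ω] [Algebra ℚ Ω] [IsAlgClosed Ω] [CharZero Ω]
    (hcard : ℵ₀ < #Ω) {F₀ : IntermediateField ℚ (LaurentSeries ℚ)}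
    (hRR : ∀ S : Finset Ω, IsRRField ↥(closField (S : Set Ω))
      (laurentBaseChange ↥(closField (S : Set Ω)) F₀))
    (hΩ : IsRRField Ω (laurentBaseChange Ω F₀)) (x₀ : F₀)
    (hx : ∃ P : Place Ω (laurentBaseChange Ω F₀), P.ord (xOf Ω x₀) < 0)
    {g : ℕ} (P Q : Fin g → Place Ω (laurentBaseChange Ω F₀))
    (c d : Fin g → Ω) (hc : AlgebraicIndependent ℚ c) (hd : AlgebraicIndependent ℚ d)
    (hPc : ∀ i, Over x₀ (P i) (c i)) (hQd : ∀ i, Over x₀ (Q i) (d i)) (n : ℕ) (hn : n ≤ g) :
    ∃ σ ∈ galOver (∅ : Set Ω), ∀ i : Fin g, (i : ℕ) < n →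
      arithmeticGalois F₀ σ • Q i = P i := by
  classical
  induction n with
  | zero => exact ⟨1, Subgroup.one_mem _, fun i hi => absurd hi (Nat.not_lt_zero _)⟩
  | succ n ih =>
    obtain ⟨σ, hσ, hσQ⟩ := ih (Nat.le_of_succ_le hn)
    let i₀ : Fin g := ⟨n, hn⟩
    -- the values of the translated tuple
    have hσd : ∀ j : Fin g, (j : ℕ) < n → σ (d j) = c j := fun j hj =>
      over_unique x₀ (hσQ j hj ▸ over_smul x₀ σ (hQd j)) (hPc j)
    have hd' : AlgebraicIndependent ℚ (fun j => σ (d j)) :=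
      hd.map' (f := (σ : Ω →ₐ[ℚ] Ω)) σ.injective
    let S : Finset Ω := Finset.image c (Finset.univ.filter fun j : Fin g => (j : ℕ) < n)
    have hS1 : (S : Set Ω) ⊆ c '' {j | j ≠ i₀} := by
      intro a ha
      obtain ⟨j, hj, rfl⟩ := Finset.mem_image.mp (Finset.mem_coe.mp ha)
      have hj' : (j : ℕ) < n := (Finset.mem_filter.mp hj).2
      exact ⟨j, fun h => by rw [h] at hj'; exact lt_irrefl _ hj', rfl⟩
    have hS2 : (S : Set Ω) ⊆ (fun j => σ (d j)) '' {j | j ≠ i₀} := by
      intro a ha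
      obtain ⟨j, hj, rfl⟩ := Finset.mem_image.mp (Finset.mem_coe.mp ha)
      have hj' : (j : ℕ) < n := (Finset.mem_filter.mp hj).2
      exact ⟨j, fun h => by rw [h] at hj'; exact lt_irrefl _ hj', hσd j hj'⟩
    have hc₀ : c i₀ ∉ closField (S : Set Ω) := fun h =>
      not_mem_closField_of_algebraicIndependent c hc i₀ (closField_mono hS1 h)
    have hd₀ : σ (d i₀) ∉ closField (S : Set Ω) := fun h =>
      not_mem_closField_of_algebraicIndependent (fun j => σ (d j)) hd' i₀ (closField_mono hS2 h)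
    haveI : IsAlgClosed ↥(closField (S : Set Ω)) := closField_isAlgClosed _
    haveI : Countable ↥(closField (S : Set Ω)) :=
      countable_closField _ S.countable_toSet
    have hgP : IsGen F₀ ↥(closField (S : Set Ω)) Ω (P i₀) :=
      conj_isGen_of_over _ (hRR S) hΩ (hPc i₀) hc₀
    have hgQ : IsGen F₀ ↥(closField (S : Set Ω)) Ω (arithmeticGalois F₀ σ • Q i₀) :=
      conj_isGen_of_over _ (hRR S) hΩ (over_smul x₀ σ (hQd i₀)) hd₀
    obtain ⟨τ, hτ, hτQ⟩ := exists_descGal_smul_eq_pf hcard (hRR S) hΩ _ _ hgQ hgP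
    have hτ' : τ ∈ galOver (∅ : Set Ω) := galOver_anti (Set.empty_subset (S : Set Ω)) hτ
    refine ⟨τ * σ, Subgroup.mul_mem _ hτ' hσ, fun j hj => ?_⟩
    rw [map_mul, mul_smul]
    rcases Nat.lt_succ_iff_lt_or_eq.mp hj with hj' | hj'
    · rw [hσQ j hj']
      refine conj_smul_eq_of_over _ (hRR S) hΩ hx (hPc j) ?_ hτ
      exact subset_closField _ (Finset.mem_coe.mpr (Finset.mem_image.mpr
        ⟨j, Finset.mem_filter.mpr ⟨Finset.mem_univ _, hj'⟩, rfl⟩))
    · have hji : j = i₀ := Fin.ext hj'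
      rw [hji]
      exact hτQ

/-- **(E3) = (L4)**: two generic tuples of places are conjugate under `Aut(Ω / ℚ̄)`. -/
theorem exists_conj {Ω : Type} [Field Ω] [Algebra ℚ Ω] [IsAlgClosed Ω] [CharZero Ω]
    (hcard : ℵ₀ < #Ω) {F₀ : IntermediateField ℚ (LaurentSeries ℚ)}
    (hRR : ∀ S : Finset Ω, IsRRField ↥(closField (S : Set Ω))
      (laurentBaseChange ↥(closField (S : Set Ω)) F₀))
    (hΩ : IsRRField Ω (laurentBaseChange Ω F₀)) (x₀ : F₀)
    (hx : ∃ P : Place Ω (laurentBaseChange Ω F₀), P.ord (xOf Ω x₀) < 0)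
    {g : ℕ} (P Q : Fin g → Place Ω (laurentBaseChange Ω F₀))
    (hP : IsGenTuple x₀ P) (hQ : IsGenTuple x₀ Q) :
    ∃ σ ∈ galOver (∅ : Set Ω), ∀ i, arithmeticGalois F₀ σ • Q i = P i := by
  obtain ⟨c, hc, hPc⟩ := hP
  obtain ⟨d, hd, hQd⟩ := hQ
  obtain ⟨σ, hσ, h⟩ := exists_conj_aux hcard hRR hΩ x₀ hx P Q c d hc hd hPc hQd g le_rfl
  exact ⟨σ, hσ, fun i => h i i.2⟩

end Fermat.Agent.Div
end
end MergeWrap_Lib_Div_Conj

section MergeWrap_Lib_Div_NsmulDescent -- from Lib/Div/NsmulDescent.lean

set_option autoImplicit false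

noncomputable section

namespace Fermat.Agent.Div

open ModularCurve HahnSeries AlgebraicCurve Fermat.Agent.RR Fermat.Agent.F3I2

variable {K K' : Type*} [Field K] [Field K'] [Algebra ℚ K] [Algebra ℚ K'] [Algebra K K']
variable {F₀ : IntermediateField ℚ (LaurentSeries ℚ)}

set_option maxHeartbeats 1000000 in
/-- **Descent of `n`-th parts** (divisor form). -/
theorem nsmul_descends (P : DescPlaces K K' F₀) [IsAlgClosed K] [IsAlgClosed K'] [CharZero K']
    (hK : IsRRField K (laurentBaseChange K F₀)) (hK' : IsRRField K' (laurentBaseChange K' F₀))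
    (n : ℕ) (hn : 0 < n)
    (hfin : {c : Pic0 K' (laurentBaseChange K' F₀) | n • c = 0}.Finite)
    (D' : Divisor.degZero (K := K') (F := laurentBaseChange K' F₀))
    (D₀ : Divisor K (laurentBaseChange K F₀))
    (hD₀ : (n • (D' : Divisor K' (laurentBaseChange K' F₀)) - P.bcDiv D₀) ∈
      Divisor.principal (K := K') (F := laurentBaseChange K' F₀)) :
    ∃ D : Divisor K (laurentBaseChange K F₀), Divisor.degree D = 0 ∧
      ((D' : Divisor K' (laurentBaseChange K' F₀)) - P.bcDiv D) ∈
        Divisor.principal (K := K') (F := laurentBaseChange K' F₀) := by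
  classical
  obtain ⟨v₀⟩ := nonempty_place hK
  set P₀ := P.ext v₀ with hP₀
  have hD'0 : Divisor.degree (D' : Divisor K' (laurentBaseChange K' F₀)) = 0 := D'.2
  obtain ⟨m, E, hE, hED, huniq⟩ := exists_canonical_effective hK' P₀ (D' : Divisor K' _) hD'0
  set D'' : Divisor K' (laurentBaseChange K' F₀) := E - Finsupp.single P₀ (m : ℤ) with hD''
  -- `n D'' - bcDiv D₀` is principal
  have hnD'' : (n • D'' - P.bcDiv D₀) ∈
      Divisor.principal (K := K') (F := laurentBaseChange K' F₀) := by
    have h2 := nsmul_mem hED n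
    have h3 := add_mem h2 hD₀
    have h4 : n • (E - (D' : Divisor K' (laurentBaseChange K' F₀)) - Finsupp.single P₀ (m : ℤ))
        + (n • (D' : Divisor K' (laurentBaseChange K' F₀)) - P.bcDiv D₀)
        = n • D'' - P.bcDiv D₀ := by
      rw [hD'', nsmul_sub, nsmul_sub, nsmul_sub]
      abel
    rwa [h4] at h3
  obtain ⟨x', hx'0, hx'⟩ := hnD''
  obtain ⟨c, k, hc, hk⟩ := descNormalize F₀ x' hx'0
  set x'' := algebraMap K' (laurentBaseChange K' F₀) c * x' with hx''
  have hcne : algebraMap K' (laurentBaseChange K' F₀) c ≠ 0 := by simpa using hc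
  have hx''0 : x'' ≠ 0 := mul_ne_zero hcne hx'0
  have hord : ∀ w : Place K' (laurentBaseChange K' F₀),
      w.ord x'' = (n : ℤ) * D'' w - P.bcDiv D₀ w := by
    intro w
    rw [hx'', w.ord_mul hcne hx'0, descPlace_ord_algebraMap w hc, zero_add, ← hx' w]
    simp
  have hconst : ∀ y : laurentBaseChange K' F₀, y ≠ 0 →
      (∀ w : Place K' (laurentBaseChange K' F₀), w.ord y = 0) →
      ∃ a : K', y = algebraMap K' (laurentBaseChange K' F₀) a :=
    fun y _ hy => descConst_of_isRRField hK' y hy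
  -- the stabiliser of the class fixes `x''`
  have hfix : ∀ ρ ∈ descGal K K', arithmeticGalois F₀ ρ • Pic0.mk D' = Pic0.mk D' →
      arithmeticGalois F₀ ρ • x'' = x'' := by
    intro ρ hρ hρx
    set g := arithmeticGalois F₀ ρ with hg
    have hgD : (g • (D' : Divisor K' (laurentBaseChange K' F₀)) - D') ∈
        Divisor.principal (K := K') (F := laurentBaseChange K' F₀) := by
      rw [SemilinearAut.pic0_smul_mk, descPic0_mk_eq_iff] at hρx
      exact hρx
    have hgE : g • E = E :=
      canonical_effective_fixed hK' P₀ _ hD'0 m E hE hED huniq g (P.smul_ext hρ v₀) hgD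
    have hgD'' : g • D'' = D'' := by
      rw [hD'', smul_sub, hgE, SemilinearAut.smul_single, P.smul_ext hρ v₀]
    refine descFixed_of_ord F₀ hconst x'' k hk ρ fun w => ?_
    rw [hord, hord, P.bcDiv_smul_apply hρ]
    congr 2
    have := SemilinearAut.divisor_smul_apply_smul g D'' w
    rw [hgD''] at this
    exact this
  have hkey : ∀ σ ∈ descGal K K', ∀ τ ∈ descGal K K',
      arithmeticGalois F₀ σ • Pic0.mk D' = arithmeticGalois F₀ τ • Pic0.mk D' →
      arithmeticGalois F₀ σ • x'' = arithmeticGalois F₀ τ • x'' := by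
    intro σ hσ τ hτ h
    have hρ : τ⁻¹ * σ ∈ descGal K K' := mul_mem (inv_mem hτ) hσ
    have h1 : arithmeticGalois F₀ (τ⁻¹ * σ) • Pic0.mk D' = Pic0.mk D' := by
      rw [map_mul, mul_smul, h, ← mul_smul, map_inv, inv_mul_cancel, one_smul]
    have h2 := hfix _ hρ h1
    have h3 : arithmeticGalois F₀ σ = arithmeticGalois F₀ τ * arithmeticGalois F₀ (τ⁻¹ * σ) := by
      rw [← map_mul, mul_inv_cancel_left]
    rw [h3, mul_smul, h2]
  -- the degree of `D₀`
  have hdegbc : Divisor.degree (P.bcDiv D₀) = 0 := by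
    have h1 := descDegree_eq_zero_of_principal hK' hD₀
    rw [map_sub, map_nsmul, hD'0, smul_zero, zero_sub, neg_eq_zero] at h1
    exact h1
  -- `n [D']` is fixed by `Aut(K'/K)`
  have hnfix : ∀ σ ∈ descGal K K',
      n • (arithmeticGalois F₀ σ • Pic0.mk D' - Pic0.mk D') = 0 := by
    intro σ hσ
    set g := arithmeticGalois F₀ σ with hg
    have hbc0 : P.bcDiv D₀ ∈ Divisor.degZero (K := K') (F := laurentBaseChange K' F₀) := by
      rw [Divisor.mem_degZero]; exact hdegbc
    have h1 : n • Pic0.mk D' = Pic0.mk ⟨P.bcDiv D₀, hbc0⟩ := by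
      have h1' : n • Pic0.mk D' = Pic0.mk (n • D') := rfl
      rw [h1', descPic0_mk_eq_iff]
      exact hD₀
    have h2 : g • Pic0.mk (⟨P.bcDiv D₀, hbc0⟩ :
        Divisor.degZero (K := K') (F := laurentBaseChange K' F₀)) = Pic0.mk ⟨P.bcDiv D₀, hbc0⟩ := by
      rw [SemilinearAut.pic0_smul_mk]
      congr 1
      apply Subtype.ext
      exact P.smul_bcDiv hσ D₀
    rw [nsmul_sub, smul_comm n g, h1, h2, sub_self]
  -- finite orbit
  have hfinorb : Set.Finite {y : laurentBaseChange K' F₀ |
      ∃ σ ∈ descGal K K', arithmeticGalois F₀ σ • x'' = y} := by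
    let ψ : Pic0 K' (laurentBaseChange K' F₀) → laurentBaseChange K' F₀ := fun c =>
      if h : ∃ σ ∈ descGal K K', arithmeticGalois F₀ σ • Pic0.mk D' - Pic0.mk D' = c then
        arithmeticGalois F₀ h.choose • x'' else 0
    refine (hfin.image ψ).subset ?_
    rintro y ⟨σ, hσ, rfl⟩
    refine ⟨arithmeticGalois F₀ σ • Pic0.mk D' - Pic0.mk D', hnfix σ hσ, ?_⟩
    have hex : ∃ τ ∈ descGal K K',
        arithmeticGalois F₀ τ • Pic0.mk D' - Pic0.mk D'
          = arithmeticGalois F₀ σ • Pic0.mk D' - Pic0.mk D' :=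
      ⟨σ, hσ, rfl⟩
    show (if h : ∃ τ ∈ descGal K K',
        arithmeticGalois F₀ τ • Pic0.mk D' - Pic0.mk D'
          = arithmeticGalois F₀ σ • Pic0.mk D' - Pic0.mk D' then
      arithmeticGalois F₀ h.choose • x'' else 0) = _
    rw [dif_pos hex]
    exact hkey _ hex.choose_spec.1 _ hσ (sub_left_injective hex.choose_spec.2)
  obtain ⟨h₀, hh₀⟩ := descTheta_of_finite_orbit K K' F₀ x'' hfinorb
  -- the divisor over `K`
  have hsupp : (D''.support : Set (Place K' (laurentBaseChange K' F₀))) ⊆ Set.range P.ext := by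
    intro w hw
    rw [Finset.mem_coe, Finsupp.mem_support_iff] at hw
    by_cases hwe : ∃ v, P.ext v = w
    · exact hwe
    · exfalso
      rcases P.dich w with hv | h0
      · exact hwe hv
      · push Not at hwe
        have h1 := hord w
        rw [← hh₀, h0 h₀, P.bcDiv_apply_of_not D₀ w hwe, sub_zero] at h1
        have hn0 : (n : ℤ) ≠ 0 := by exact_mod_cast hn.ne'
        exact hw ((mul_eq_zero.mp h1.symm).resolve_left hn0)
  let D : Divisor K (laurentBaseChange K F₀) :=
    Finsupp.comapDomain P.ext D'' P.ext_injective.injOn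
  have hbc : P.bcDiv D = D'' := Finsupp.mapDomain_comapDomain P.ext P.ext_injective D'' hsupp
  have hDD' : ((D' : Divisor K' (laurentBaseChange K' F₀)) - P.bcDiv D) ∈
      Divisor.principal (K := K') (F := laurentBaseChange K' F₀) := by
    rw [hbc, hD'']
    have := neg_mem hED
    have h2 : -(E - (D' : Divisor K' (laurentBaseChange K' F₀)) - Finsupp.single P₀ (m : ℤ))
        = (D' : Divisor K' (laurentBaseChange K' F₀)) - (E - Finsupp.single P₀ (m : ℤ)) := by
      abel
    rwa [h2] at this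
  refine ⟨D, ?_, hDD'⟩
  have h1 := descDegree_eq_zero_of_principal hK' hDD'
  rw [map_sub, hD'0, zero_sub, neg_eq_zero, P.degree_bcDiv hK hK'] at h1
  exact h1

/-- **Descent of `n`-th parts** (class form): `n • x' = bc y` implies `x' = bc x`, `n • x = y`. -/
theorem bc_of_nsmul_eq (P : DescPlaces K K' F₀) [IsAlgClosed K] [IsAlgClosed K'] [CharZero K']
    (hK : IsRRField K (laurentBaseChange K F₀)) (hK' : IsRRField K' (laurentBaseChange K' F₀))
    (n : ℕ) (hn : 0 < n)
    (hfin : {c : Pic0 K' (laurentBaseChange K' F₀) | n • c = 0}.Finite)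
    (x' : Pic0 K' (laurentBaseChange K' F₀)) (y : Pic0 K (laurentBaseChange K F₀))
    (h : n • x' = P.bc hK hK' y) :
    ∃ x : Pic0 K (laurentBaseChange K F₀), P.bc hK hK' x = x' ∧ n • x = y := by
  obtain ⟨D', hD'⟩ := Pic0.mk_surjective x'
  obtain ⟨D₀, hD₀y⟩ := Pic0.mk_surjective y
  have h2 : Pic0.mk (n • D') = Pic0.mk (P.bcDegZero hK hK' D₀) := by
    have h1 : n • Pic0.mk D' = Pic0.mk (n • D') := rfl
    rw [← h1, hD', h, ← hD₀y, DescPlaces.bc_mk]
  have hD₀ : (n • (D' : Divisor K' (laurentBaseChange K' F₀)) -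
      P.bcDiv (D₀ : Divisor K (laurentBaseChange K F₀))) ∈
      Divisor.principal (K := K') (F := laurentBaseChange K' F₀) :=
    (descPic0_mk_eq_iff (n • D') (P.bcDegZero hK hK' D₀)).mp h2
  obtain ⟨D, hD0, hD⟩ := nsmul_descends (K := K) (K' := K') (F₀ := F₀) P hK hK' n hn hfin D'
    (D₀ : Divisor K (laurentBaseChange K F₀)) hD₀
  have hx : P.bc hK hK' (Pic0.mk ⟨D, hD0⟩) = x' := by
    rw [DescPlaces.bc_mk, ← hD', descPic0_mk_eq_iff]
    have := neg_mem hD
    simpa using this
  refine ⟨Pic0.mk ⟨D, hD0⟩, hx, ?_⟩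
  apply P.bc_injective hK hK'
  have h3 : P.bc hK hK' (n • Pic0.mk ⟨D, hD0⟩) = n • P.bc hK hK' (Pic0.mk ⟨D, hD0⟩) :=
    map_nsmul _ _ _
  rw [h3, hx, h]

/-- **Descent of `n`-th parts for `J₀(N)`**: a class of `Pic0 ℂ (F_ℂ(N))` whose `n`-th multiple
comes from `JZero N` comes from `JZero N`. -/
theorem descBc_of_nsmul_eq (N : ℕ) [NeZero N] (n : ℕ) (hn : 0 < n)
    (x' : Pic0 ℂ (laurentBaseChange ℂ (modularFunctionFieldFull N))) (y : JZero N)
    (h : n • x' = descBc N y) :
    ∃ x : JZero N, descBc N x = x' ∧ n • x = y :=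
  letI := descAlgebraQbarC
  bc_of_nsmul_eq (descPlacesQC (Fermat.Agent.RRMod.isRRField_bar N))
    (Fermat.Agent.RRMod.isRRField_bar N) (descIsRRField_FC N) n hn
    (Fermat.Agent.F3TF.finite_torsion_FC hn.ne') x' y h

/-- **DIV over `ℂ` implies DIV over `ℚ̄`.** -/
theorem jZero_divisible_of_complex (N : ℕ) [NeZero N] (n : ℕ) (hn : 0 < n)
    (hC : ∀ c : Pic0 ℂ (laurentBaseChange ℂ (modularFunctionFieldFull N)),
      ∃ c' : Pic0 ℂ (laurentBaseChange ℂ (modularFunctionFieldFull N)), n • c' = c)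
    (y : JZero N) : ∃ w : JZero N, n • w = y := by
  obtain ⟨x', hx'⟩ := hC (descBc N y)
  obtain ⟨x, -, hx⟩ := descBc_of_nsmul_eq N n hn x' y hx'
  exact ⟨x, hx⟩

end Fermat.Agent.Div
end
end MergeWrap_Lib_Div_NsmulDescent

section MergeWrap_Lib_Div_Main -- from Lib/Div/Main.lean

set_option autoImplicit false

/-!
# DIV, assembly (helper38): `Pic0 (F_k)` is divisible

`divisible_of_setup`: abstract form (`k ⊂ Ω` algebraically closed, `Ω` uncountable, `k/ℚ` algebraic).
-/

noncomputable section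

namespace Fermat.Agent.Div

open ModularCurve HahnSeries AlgebraicCurve Fermat.Agent.RR Fermat.Agent.F3I2 Cardinal

section Orbits

variable {Ω : Type*} [Field Ω] [Algebra ℚ Ω]
variable {F₀ : IntermediateField ℚ (LaurentSeries ℚ)}

theorem orbitOf_mono {X : Type*} [SMul (SemilinearAut Ω (laurentBaseChange Ω F₀)) X]
    {H H' : Subgroup (Ω ≃ₐ[ℚ] Ω)} (h : H ≤ H') (x : X) :
    orbitOf F₀ H x ⊆ orbitOf F₀ H' x := by
  rintro y ⟨σ, hσ, rfl⟩
  exact ⟨σ, h hσ, rfl⟩

/-- if the orbit of `n • x` is finite and the `n`-torsion is finite, the orbit of `x` is finite. -/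
theorem finite_orbit_of_nsmul (n : ℕ)
    (htors : {c : Pic0 Ω (laurentBaseChange Ω F₀) | n • c = 0}.Finite)
    (H : Subgroup (Ω ≃ₐ[ℚ] Ω)) (x : Pic0 Ω (laurentBaseChange Ω F₀))
    (h : (orbitOf F₀ H (n • x)).Finite) : (orbitOf F₀ H x).Finite := by
  classical
  -- the orbit of `x` maps to the orbit of `n • x` with finite fibres
  refine Set.Finite.of_finite_fibers (fun y => n • y) (h.subset ?_) ?_
  · rintro _ ⟨y, ⟨σ, hσ, rfl⟩, rfl⟩
    exact ⟨σ, hσ, (smul_comm n (arithmeticGalois F₀ σ) x).symm⟩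
  · intro z _
    by_cases hne : ((orbitOf F₀ H x) ∩ (fun y => n • y) ⁻¹' {z}).Nonempty
    · obtain ⟨y₀, -, hy₀⟩ := hne
      have hy₀' : n • y₀ = z := hy₀
      refine (htors.image fun c => c + y₀).subset ?_
      rintro y ⟨-, hy⟩
      have hy' : n • y = z := hy
      refine ⟨y - y₀, ?_, by simp⟩
      show n • (y - y₀) = 0
      rw [nsmul_sub, hy', hy₀', sub_self]
    · rw [Set.not_nonempty_iff_eq_empty] at hne
      rw [hne]
      exact Set.finite_empty

/-- translating by a fixed class does not change finiteness of orbits. -/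
theorem finite_orbit_of_sub_fixed (H : Subgroup (Ω ≃ₐ[ℚ] Ω))
    (x b : Pic0 Ω (laurentBaseChange Ω F₀))
    (hb : ∀ σ ∈ H, arithmeticGalois F₀ σ • b = b)
    (h : (orbitOf F₀ H (x - b)).Finite) : (orbitOf F₀ H x).Finite := by
  refine (h.image fun c => c + b).subset ?_
  rintro _ ⟨σ, hσ, rfl⟩
  refine ⟨arithmeticGalois F₀ σ • (x - b), ⟨σ, hσ, rfl⟩, ?_⟩
  show arithmeticGalois F₀ σ • (x - b) + b = _
  rw [smul_sub, hb σ hσ, sub_add_cancel]

theorem sumPl_nonneg {n : ℕ} (Q : Fin n → Place Ω (laurentBaseChange Ω F₀)) :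
    0 ≤ sumPl Q := by
  unfold sumPl
  refine Finset.sum_nonneg fun i _ => ?_
  rw [Finsupp.le_def]
  intro v
  classical
  rw [Finsupp.single_apply]
  split_ifs <;> simp

theorem degree_sumPl (hΩ : IsRRField Ω (laurentBaseChange Ω F₀)) {n : ℕ}
    (Q : Fin n → Place Ω (laurentBaseChange Ω F₀)) :
    Divisor.degree (sumPl Q) = (n : ℤ) := by
  unfold sumPl
  rw [map_sum]
  simp [Divisor.degree_single, hΩ.deg_one]

theorem smul_sumPl (σ : Ω ≃ₐ[ℚ] Ω) {n : ℕ} (Q : Fin n → Place Ω (laurentBaseChange Ω F₀)) :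
    arithmeticGalois F₀ σ • sumPl Q = sumPl fun i => arithmeticGalois F₀ σ • Q i := by
  unfold sumPl
  rw [Finset.smul_sum]
  refine Finset.sum_congr rfl fun i _ => ?_
  rw [SemilinearAut.smul_single]

end Orbits

/-- `Aut(Ω / closField ∅)` fixes the image of every algebraic extension `k` of `ℚ`. -/
theorem galOver_empty_le_descGal {Ω k : Type*} [Field Ω] [Algebra ℚ Ω] [Field k] [Algebra ℚ k]
    [Algebra k Ω] [Algebra.IsAlgebraic ℚ k] :
    galOver (∅ : Set Ω) ≤ descGal k Ω := by
  intro σ hσ a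
  have ha : IsAlgebraic ℚ (algebraMap k Ω a) := by
    have h1 : IsAlgebraic ℚ a := Algebra.IsAlgebraic.isAlgebraic a
    have h2 := h1.algHom ((algebraMap k Ω).toRatAlgHom)
    exact h2
  exact (mem_galOver.mp hσ) _ (mem_closField_of_isAlgebraic ha ∅)

/-- the classes in the range of `bc` are fixed by `Aut(K'/K)`. -/
theorem smul_bc_fixed {K K' : Type*} [Field K] [Field K'] [Algebra ℚ K] [Algebra ℚ K']
    [Algebra K K'] {F₀ : IntermediateField ℚ (LaurentSeries ℚ)}
    (P : DescPlaces K K' F₀) (hK : IsRRField K (laurentBaseChange K F₀))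
    (hK' : IsRRField K' (laurentBaseChange K' F₀)) {σ : K' ≃ₐ[ℚ] K'} (hσ : σ ∈ descGal K K')
    (y : Pic0 K (laurentBaseChange K F₀)) :
    arithmeticGalois F₀ σ • P.bc hK hK' y = P.bc hK hK' y := by
  obtain ⟨D, rfl⟩ := Pic0.mk_surjective y
  rw [DescPlaces.bc_mk, SemilinearAut.pic0_smul_mk]
  congr 1
  apply Subtype.ext
  show arithmeticGalois F₀ σ • P.bcDiv (D : Divisor K _) = P.bcDiv (D : Divisor K _)
  exact P.smul_bcDiv hσ _

section Main

variable {Ω k : Type} [Field Ω] [Algebra ℚ Ω] [IsAlgClosed Ω] [CharZero Ω]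
  [Field k] [Algebra ℚ k] [Algebra k Ω] [IsAlgClosed k] [Algebra.IsAlgebraic ℚ k]
variable {F₀ : IntermediateField ℚ (LaurentSeries ℚ)}

/-- **(G1)** generic classes are divisible. -/
theorem exists_nsmul_eq_cls_of_isGenTuple (hcard : ℵ₀ < #Ω)
    (hRR : ∀ S : Finset Ω, IsRRField ↥(closField (S : Set Ω))
      (laurentBaseChange ↥(closField (S : Set Ω)) F₀))
    (hΩ : IsRRField Ω (laurentBaseChange Ω F₀)) (x₀ : F₀)
    (hx : ∃ P : Place Ω (laurentBaseChange Ω F₀), P.ord (xOf Ω x₀) < 0)
    (n : ℕ) (htors : {c : Pic0 Ω (laurentBaseChange Ω F₀) | n • c = 0}.Finite)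
    (P₀ : Place Ω (laurentBaseChange Ω F₀))
    (hP₀ : ∀ σ ∈ galOver (∅ : Set Ω), arithmeticGalois F₀ σ • P₀ = P₀)
    (Q : Fin (genusFF Ω (laurentBaseChange Ω F₀)) → Place Ω (laurentBaseChange Ω F₀))
    (hQ : IsGenTuple x₀ Q) :
    ∃ w : Pic0 Ω (laurentBaseChange Ω F₀), n • w = cls hΩ P₀ (sumPl Q) := by
  have hell := ell_sumPl_eq_one hΩ x₀ le_rfl Q hQ
  obtain ⟨E, hE, hEdeg, hEz⟩ := exists_effective_cls hΩ P₀ (n • cls hΩ P₀ (sumPl Q))
  obtain ⟨Q', hQ'E, hQ'⟩ := isGenTuple_of_transfer hΩ x₀ hx P₀ hP₀ Q hQ hell E hE hEdeg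
    (fun S hfin => by
      rw [← hEz] at hfin
      exact finite_orbit_of_nsmul n htors _ _ hfin)
  obtain ⟨σ, hσ, hσQ⟩ := exists_conj hcard hRR hΩ x₀ hx Q Q' hQ hQ'
  refine ⟨arithmeticGalois F₀ σ • cls hΩ P₀ (sumPl Q), ?_⟩
  rw [smul_comm n (arithmeticGalois F₀ σ), hEz, hQ'E, smul_cls hΩ P₀ σ (hP₀ σ hσ), smul_sumPl]
  congr 2
  funext i
  exact hσQ i

/-- **DIV, abstract form.** -/
theorem divisible_of_setup (hcard : ℵ₀ < #Ω)
    (hRR : ∀ S : Finset Ω, IsRRField ↥(closField (S : Set Ω))
      (laurentBaseChange ↥(closField (S : Set Ω)) F₀))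
    (hk : IsRRField k (laurentBaseChange k F₀))
    (hΩ : IsRRField Ω (laurentBaseChange Ω F₀)) (x₀ : F₀)
    (hx : ∃ P : Place Ω (laurentBaseChange Ω F₀), P.ord (xOf Ω x₀) < 0)
    (n : ℕ) (hn : 0 < n) (htors : {c : Pic0 Ω (laurentBaseChange Ω F₀) | n • c = 0}.Finite)
    (y : Pic0 k (laurentBaseChange k F₀)) :
    ∃ w : Pic0 k (laurentBaseChange k F₀), n • w = y := by
  classical
  obtain ⟨P, -⟩ : ∃ P : DescPlaces k Ω F₀, P = Fermat.Agent.ConstExt.descPlacesOfRR k Ω F₀ hk :=
    ⟨_, rfl⟩
  obtain ⟨v₀⟩ := nonempty_place hk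
  obtain ⟨P₀, hP₀def⟩ : ∃ P₀ : Place Ω (laurentBaseChange Ω F₀), P₀ = P.ext v₀ := ⟨_, rfl⟩
  have hle : galOver (∅ : Set Ω) ≤ descGal k Ω := galOver_empty_le_descGal
  have hP₀ : ∀ σ ∈ galOver (∅ : Set Ω), arithmeticGalois F₀ σ • P₀ = P₀ := by
    intro σ hσ
    rw [hP₀def]
    exact P.smul_ext (hle hσ) v₀
  obtain ⟨b, hb⟩ : ∃ b : Pic0 Ω (laurentBaseChange Ω F₀), b = P.bc hk hΩ y := ⟨_, rfl⟩
  have hbfix : ∀ σ ∈ descGal k Ω, arithmeticGalois F₀ σ • b = b := by
    intro σ hσ
    rw [hb]
    exact smul_bc_fixed P hk hΩ hσ y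
  -- a generic tuple
  obtain ⟨c, hc⟩ := exists_algebraicIndependent (Ω := Ω) hcard
    (genusFF Ω (laurentBaseChange Ω F₀))
  choose Q hQc using fun i => exists_over hΩ x₀ hx (c i)
  have hQ : IsGenTuple x₀ Q := ⟨c, hc, hQc⟩
  have hell := ell_sumPl_eq_one hΩ x₀ le_rfl Q hQ
  -- `x - b` is generic
  obtain ⟨E, hE, hEdeg, hEz⟩ := exists_effective_cls hΩ P₀ (cls hΩ P₀ (sumPl Q) - b)
  obtain ⟨Q', hQ'E, hQ'⟩ := isGenTuple_of_transfer hΩ x₀ hx P₀ hP₀ Q hQ hell E hE hEdeg
    (fun S hfin => by
      rw [← hEz] at hfin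
      refine finite_orbit_of_sub_fixed _ _ b (fun σ hσ => hbfix σ ?_) hfin
      exact hle (galOver_anti (Set.empty_subset _) hσ))
  -- both are divisible
  obtain ⟨w₁, hw₁⟩ := exists_nsmul_eq_cls_of_isGenTuple hcard hRR hΩ x₀ hx n htors P₀ hP₀ Q hQ
  obtain ⟨w₂, hw₂⟩ := exists_nsmul_eq_cls_of_isGenTuple hcard hRR hΩ x₀ hx n htors P₀ hP₀ Q' hQ'
  have hw : n • (w₁ - w₂) = b := by
    rw [nsmul_sub, hw₁, hw₂, ← hQ'E, ← hEz]
    abel
  -- descent
  rw [hb] at hw
  obtain ⟨w₀, -, hw₀⟩ := bc_of_nsmul_eq P hk hΩ n hn htors (w₁ - w₂) y hw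
  exact ⟨w₀, hw₀⟩

end Main

end Fermat.Agent.Div
end
end MergeWrap_Lib_Div_Main

section MergeWrap_Lib_Div_RRAll -- from Lib/Div/RRAll.lean

set_option autoImplicit false

/-!
# DIV, work package R: the Riemann-Roch hypotheses for `X₀(N)` over EVERY algebraically closed
field of characteristic `0`

On main: `Fermat.Agent.RRMod.isRRField_fullC' k N : IsRRField k (modularFunctionFieldFullC k N)`
for every algebraically closed `k`.  Missing bridge: for a field `L` of characteristic `0`
`laurentBaseChange L (modularFunctionFieldFull N) = modularFunctionFieldFullC L N`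
(both are `L(j(q^d) : d ∣ N)` inside `LaurentSeries L`).

Proofs: helper19.  The pole of `j` is the place of the `q`-adic order
(`Fermat.Agent.S17.Setup.laurentPlace`).
-/

noncomputable section

namespace Fermat.Agent.Div

open ModularCurve HahnSeries AlgebraicCurve Fermat.Agent.RR Fermat.Agent.F3I2

/-- `coeffEmb` maps the generators of `F_N` over `ℚ` to the generators over `L`. -/
theorem coeffEmb_qExpand_jq_all (L : Type*) [Field L] [Algebra ℚ L] (d : ℕ) [NeZero d] :
    coeffEmb L (qExpand ℚ d jq) = qExpand L d (jqModC L) := by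
  unfold coeffEmb
  rw [coeffMap_qExpand, ← jqModC_rat, coeffMap_jqModC]

/-- `coeffEmb` maps `F_N` (over `ℚ`) into `F_N` over `L`. -/
theorem coeffEmb_mem_fullC (N : ℕ) (L : Type*) [Field L] [Algebra ℚ L]
    {x : LaurentSeries ℚ} (hx : x ∈ modularFunctionFieldFull N) :
    coeffEmb L x ∈ modularFunctionFieldFullC L N := by
  unfold modularFunctionFieldFull at hx
  induction hx using IntermediateField.adjoin_induction with
  | mem x hx =>
    obtain ⟨d, hdne, hd, rfl⟩ := hx
    rw [coeffEmb_qExpand_jq_all]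
    exact jqModCd_mem_full L N hd
  | algebraMap c =>
    have h1 : coeffEmb L (algebraMap ℚ (LaurentSeries ℚ) c) = ((c : ℚ) : LaurentSeries L) := by
      rw [eq_ratCast, map_ratCast]
    rw [h1]
    exact SubfieldClass.ratCast_mem _ c
  | add x y _ _ hx hy =>
    rw [map_add]
    exact add_mem hx hy
  | inv x _ hx =>
    rw [map_inv₀]
    exact inv_mem hx
  | mul x y _ _ hx hy =>
    rw [map_mul]
    exact mul_mem hx hy

/-- the bridge between the two models of the function field of `X₀(N)` over `L`. -/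
theorem laurentBaseChange_full_eq (N : ℕ) [NeZero N] (L : Type*) [Field L] [Algebra ℚ L] :
    laurentBaseChange L (modularFunctionFieldFull N) = modularFunctionFieldFullC L N := by
  apply le_antisymm
  · unfold laurentBaseChange
    rw [IntermediateField.adjoin_le_iff]
    rintro _ ⟨x, hx, rfl⟩
    exact coeffEmb_mem_fullC N L hx
  · unfold modularFunctionFieldFullC
    rw [IntermediateField.adjoin_le_iff]
    rintro _ ⟨d, hdne, hd, rfl⟩
    rw [← coeffEmb_qExpand_jq_all]
    exact coeffEmb_mem_laurentBaseChange L (jqd_mem_full N hd)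

/-- **(R)** Riemann-Roch hypotheses over every algebraically closed field of characteristic 0. -/
theorem isRRField_all (N : ℕ) [NeZero N] (L : Type*) [Field L] [Algebra ℚ L] [IsAlgClosed L] :
    IsRRField L (laurentBaseChange L (modularFunctionFieldFull N)) := by
  have h := Fermat.Agent.RRMod.isRRField_fullC' L N
  exact (congrArg (fun X : IntermediateField L (LaurentSeries L) => IsRRField L ↥X)
    (laurentBaseChange_full_eq N L)).mpr h

/-- the coordinate function `j` of `X₀(N)`. -/
def jCoord (N : ℕ) [NeZero N] : modularFunctionFieldFull N :=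
  ⟨jq, by
    have h := jqd_mem_full (N := N) (d := 1) (one_dvd N)
    rwa [qExpand_one_apply] at h⟩

theorem coeff_xOf_jCoord (N : ℕ) [NeZero N] (L : Type*) [Field L] [Algebra ℚ L] :
    ((xOf L (jCoord N) : laurentBaseChange L (modularFunctionFieldFull N)) :
      LaurentSeries L).coeff (-1) = 1 := by
  show (coeffEmb L jq).coeff (-1) = 1
  rw [coeffEmb_coeff, coeff_jq_neg_one, map_one]

/-- `j` has a pole. -/
theorem exists_pole_jCoord (N : ℕ) [NeZero N] (L : Type*) [Field L] [Algebra ℚ L]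
    [IsAlgClosed L] :
    ∃ P : Place L (laurentBaseChange L (modularFunctionFieldFull N)),
      P.ord (xOf L (jCoord N)) < 0 := by
  have hE : ∃ f : laurentBaseChange L (modularFunctionFieldFull N), ∃ n : ℤ, n < 0 ∧
      (f : LaurentSeries L).coeff n ≠ 0 :=
    ⟨xOf L (jCoord N), -1, by norm_num, by
      rw [coeff_xOf_jCoord]
      exact one_ne_zero⟩
  refine ⟨Fermat.Agent.S17.Setup.laurentPlace _ hE, ?_⟩
  apply Fermat.Agent.S24Res.ord_neg_of_not_mem
  intro hmem
  have h0 := (Fermat.Agent.S17.Setup.mem_laurentPlace_iff _ hE _).mp hmem (-1) (by norm_num)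
  rw [coeff_xOf_jCoord] at h0
  exact one_ne_zero h0

end Fermat.Agent.Div
end
end MergeWrap_Lib_Div_RRAll

section MergeWrap_Lib_Div_Inst -- from Lib/Div/Inst.lean

set_option autoImplicit false

/-!
# DIV for `J₀(N)`: `J₀(N)(ℚ̄)` is divisible (helper38)

Instance of `Fermat.Agent.Div.divisible_of_setup` with `Ω = ℂ`, `k = ℚ̄`,
`F₀ = modularFunctionFieldFull N`, `x₀ = j`.
-/

noncomputable section

namespace Fermat.Agent.Div

open ModularCurve HahnSeries AlgebraicCurve Fermat.Agent.RR Fermat.Agent.F3I2 Cardinal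

/-- **DIV**: `J₀(N)(ℚ̄)` is `n`-divisible for every `n > 0`. -/
theorem jZero_divisible (N : ℕ) [NeZero N] (n : ℕ) (hn : 0 < n) (y : JZero N) :
    ∃ w : JZero N, n • w = y := by
  letI : Algebra (AlgebraicClosure ℚ) ℂ := descAlgebraQbarC
  haveI : Algebra.IsAlgebraic ℚ (AlgebraicClosure ℚ) := AlgebraicClosure.isAlgebraic ℚ
  have hcard : ℵ₀ < #ℂ := by
    rw [Cardinal.mk_complex]
    exact Cardinal.aleph0_lt_continuum
  have hRR : ∀ S : Finset ℂ, IsRRField ↥(closField (S : Set ℂ))
      (laurentBaseChange ↥(closField (S : Set ℂ)) (modularFunctionFieldFull N)) := by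
    intro S
    haveI : IsAlgClosed ↥(closField (S : Set ℂ)) := closField_isAlgClosed _
    exact isRRField_all N _
  exact divisible_of_setup (Ω := ℂ) (k := AlgebraicClosure ℚ) hcard hRR
    (isRRField_all N (AlgebraicClosure ℚ)) (isRRField_all N ℂ) (jCoord N)
    (exists_pole_jCoord N ℂ) n hn (Fermat.Agent.F3TF.finite_torsion_FC hn.ne') y

/-- **Package DIV of S17.** -/
theorem jZeroTwoDivisible (N : ℕ) [NeZero N] : Fermat.Agent.S17.JZeroTwoDivisible N :=
  fun x => jZero_divisible N 2 (by norm_num) x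

end Fermat.Agent.Div
end
end MergeWrap_Lib_Div_Inst
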